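/-
PROJECT D (S48), part B, block B2 = [B-igusa] (leader helper25), brick (F) (helper4):
THE DEGREE OF `X₁(M)` OVER THE `j`-LINE DOES NOT DEPEND ON THE FIELD OF CONSTANTS.

Twin of main's `S36/GaussL.{jL, transcendental_jL, finrank_jL}` with `modularFunctionFieldFull N`
replaced by `F1 M`, and with an arbitrary extension `L → L'` of fields of constants in place of
`ℚ → L`:

* `jL1 M L` : `j` as an element of `L ⊗ F1 M`; `coe_jL1`, `jL1_Kb : jL1 M ℚ̄ = jgen1 M`,
  `transcendental_jL1`;
* `finrank_jL1` : if `L ⊗ F1 M` is finite over `L(j)` then `L' ⊗ F1 M` is finite over `L'(j)`, of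
  the same degree (`S30/Descent/ConstExt.finrank_bcHom` transported along
  `ConstExt.constExt_laurentBaseChange`).
-/
import Mathlib
import Fermat.Agent.S30.Descent.ConstExt
import Fermat.Agent.S28.ThetaAdjoin
import Fermat.Agent.S18.B.Basic
import Fermat.Agent.S48.B.Defs.Model
import Fermat.Agent.S48.B.B1.Seams

set_option autoImplicit false

noncomputable section

namespace Fermat.Agent.S48.B.Igusa.DegBC

open HahnSeries ModularCurve IntermediateField
open Fermat.Agent.S30.Descent.ConstExt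
open Fermat.Agent.S48.B.Defs.Model

local notation "Kb" => AlgebraicClosure ℚ

variable (M : ℕ) [NeZero M]

/-! ### `j` over an arbitrary field of constants -/

theorem jq_mem_F1 : jq ∈ F1 M := by
  have h := jqd_mem_F1 M (one_dvd M)
  rwa [qExpand_one_apply] at h

/-- `j` as an element of `L ⊗ F1 M` -/
def jL1 (L : Type*) [Field L] [Algebra ℚ L] : ↥(laurentBaseChange L (F1 M)) :=
  ⟨coeffEmb L jq, coeffEmb_mem_laurentBaseChange L (jq_mem_F1 M)⟩

@[simp]
theorem coe_jL1 (L : Type*) [Field L] [Algebra ℚ L] :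
    ((jL1 M L : ↥(laurentBaseChange L (F1 M))) : LaurentSeries L) = coeffEmb L jq := rfl

theorem coe_jL1_eq (L : Type*) [Field L] [Algebra ℚ L] :
    ((jL1 M L : ↥(laurentBaseChange L (F1 M))) : LaurentSeries L) = jqModC L :=
  Fermat.Agent.S18.B.Basic.coeffEmb_jq L

/-- over `ℚ̄` it is block B1's `jgen1 M` -/
theorem jL1_Kb : jL1 M Kb = Fermat.Agent.S48.B.B1.Seams.jgen1 M := by
  apply Subtype.ext
  show coeffEmb Kb jq = ((Fermat.Agent.S24.DegreeAlg.jgen M : ↥(modularFunctionFieldBar M)) :
    LaurentSeries Kb)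
  rw [Fermat.Agent.S24.DegreeAlg.coe_jgen]

theorem transcendental_jL1 (L : Type*) [Field L] [Algebra ℚ L] :
    Transcendental L (jL1 M L) := by
  intro halg
  have h1 : IsAlgebraic L ((jL1 M L : ↥(laurentBaseChange L (F1 M))) : LaurentSeries L) :=
    IntermediateField.isAlgebraic_iff.mp halg
  rw [coe_jL1_eq] at h1
  exact Fermat.Agent.S28.ThetaAdjoin.transcendental_jqModC L h1

/-! ### transport along an equality of intermediate fields -/

section Transport

variable {K E : Type*} [Field K] [Field E] [Algebra K E]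

theorem finrank_of_eq {F F' : IntermediateField K E} (h : F = F') (x : F) (hx' : (x : E) ∈ F')
    [FiniteDimensional K⟮x⟯ F] :
    FiniteDimensional K⟮(⟨(x : E), hx'⟩ : F')⟯ F' ∧
      Module.finrank K⟮(⟨(x : E), hx'⟩ : F')⟯ F' = Module.finrank K⟮x⟯ F := by
  subst h
  exact ⟨inferInstance, rfl⟩

end Transport

/-! ### degree preservation -/

/-- **`[L' ⊗ F1 M : L'(j)] = [L ⊗ F1 M : L(j)]`** for every extension `L → L'` of fields of
constants. -/
theorem finrank_jL1 (L L' : Type*) [Field L] [Field L'] [Algebra ℚ L] [Algebra ℚ L']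
    [Algebra L L'] [IsScalarTower ℚ L L']
    (hfin : FiniteDimensional ↥L⟮jL1 M L⟯ ↥(laurentBaseChange L (F1 M))) :
    FiniteDimensional ↥L'⟮jL1 M L'⟯ ↥(laurentBaseChange L' (F1 M)) ∧
      Module.finrank ↥L'⟮jL1 M L'⟯ ↥(laurentBaseChange L' (F1 M)) =
        Module.finrank ↥L⟮jL1 M L⟯ ↥(laurentBaseChange L (F1 M)) := by
  have hy : Transcendental L (jL1 M L) := transcendental_jL1 M L
  have h2 := finrank_bcHom (K' := L') (F := laurentBaseChange L (F1 M)) hy
  have heq : constExt L' (laurentBaseChange L (F1 M)) = laurentBaseChange L' (F1 M) :=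
    constExt_laurentBaseChange (K := L) (K' := L') (F1 M)
  have hc : ((bcHom L' (laurentBaseChange L (F1 M)) (jL1 M L) :
      constExt L' (laurentBaseChange L (F1 M))) : LaurentSeries L') = coeffEmb L' jq := by
    rw [coe_bcHom, coe_jL1, bc_coeffEmb]
  have hmem : ((bcHom L' (laurentBaseChange L (F1 M)) (jL1 M L) :
      constExt L' (laurentBaseChange L (F1 M))) : LaurentSeries L') ∈
        laurentBaseChange L' (F1 M) := by
    rw [hc]
    exact coeffEmb_mem_laurentBaseChange L' (jq_mem_F1 M)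
  have := h2.1
  obtain ⟨h3, h4⟩ := finrank_of_eq heq (bcHom L' (laurentBaseChange L (F1 M)) (jL1 M L)) hmem
  have hj : (⟨_, hmem⟩ : ↥(laurentBaseChange L' (F1 M))) = jL1 M L' := Subtype.ext hc
  rw [hj] at h3 h4
  exact ⟨h3, h4.trans h2.2⟩

end Fermat.Agent.S48.B.Igusa.DegBC
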