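/-
PROJECT D (S48, Deligne–Serre), PART B, block B2 (Igusa for `X₁(M)`), brick (E) (helper25):
UNIQUE + UNRAMIFIED EXTENSION OF A DISCRETE VALUATION RING HAS FULL RESIDUE DEGREE.

`L / K` finite separable, `A₀` a valuation subring of `K` which is a discrete valuation ring,
`A` a valuation subring of `L` over `A₀`.  If `A` is the ONLY valuation subring of `L` over `A₀`
and the maximal ideal of `A` is generated by an element `ϖ` of `A₀` (no ramification), then there
are `n = [L : K]` elements of `A` whose residues are linearly independent over the residue field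
of `A₀`:  `∑ cᵢ yᵢ ∈ 𝔪_A` with `cᵢ ∈ A₀` forces all `cᵢ ∈ 𝔪_{A₀}`.

Proof: the integral closure `C` of `A₀` in `L` is the intersection of the valuation subrings of
`L` containing `A₀`; such a ring restricts to `A₀` or to `K` (`A₀` is a DVR), so it is `A` or `L`:
`C = A`.  `C` is a free `A₀`-module of rank `n` (Mathlib), and a basis does it.  Mathlib only.
-/
import Mathlib

set_option autoImplicit false

namespace Fermat.Agent.S48.B.Igusa.Degree

variable {K L : Type*} [Field K] [Field L] [Algebra K L]

/-! ### Valuation subrings containing a discrete valuation ring -/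

theorem ofPrime_congr (A₀ : ValuationSubring K) {P Q : Ideal A₀} [P.IsPrime] [Q.IsPrime]
    (h : P = Q) : A₀.ofPrime P = A₀.ofPrime Q := by
  subst h
  rfl

/-- A valuation subring containing a DVR `A₀` is `A₀` or the whole field. -/
theorem eq_or_eq_top_of_le (A₀ V : ValuationSubring K) [IsDiscreteValuationRing A₀]
    (h : A₀ ≤ V) : V = A₀ ∨ V = ⊤ := by
  have hP : (ValuationSubring.idealOfLE A₀ V h).IsPrime := inferInstance
  have hV : ValuationSubring.ofPrime A₀ (ValuationSubring.idealOfLE A₀ V h) = V :=
    ValuationSubring.ofPrime_idealOfLE A₀ V h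
  by_cases h0 : ValuationSubring.idealOfLE A₀ V h = ⊥
  · right
    have h2 : ValuationSubring.idealOfLE A₀ V h = ValuationSubring.idealOfLE A₀ ⊤ le_top := by
      rw [h0, ValuationSubring.idealOfLE_top]
    have h3 := ValuationSubring.ofPrime_idealOfLE A₀ ⊤ le_top
    calc V = _ := hV.symm
      _ = _ := ofPrime_congr A₀ h2
      _ = ⊤ := h3
  · left
    have hmax : (ValuationSubring.idealOfLE A₀ V h).IsMaximal :=
      hP.isMaximal h0
    have h1 : ValuationSubring.idealOfLE A₀ V h = IsLocalRing.maximalIdeal A₀ :=
      IsLocalRing.eq_maximalIdeal hmax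
    have h2 : ValuationSubring.idealOfLE A₀ V h = ValuationSubring.idealOfLE A₀ A₀ le_rfl := by
      rw [h1]
      rfl
    have h3 := ValuationSubring.ofPrime_idealOfLE A₀ A₀ le_rfl
    calc V = _ := hV.symm
      _ = _ := ofPrime_congr A₀ h2
      _ = A₀ := h3

/-- A valuation subring of `L` containing `K` is everything (`L / K` algebraic). -/
theorem eq_top_of_comap_eq_top [Algebra.IsAlgebraic K L] (V : ValuationSubring L)
    (h : V.comap (algebraMap K L) = ⊤) : V = ⊤ := by
  rw [eq_top_iff]
  intro x _
  have hx : IsIntegral K x := Algebra.IsIntegral.isIntegral x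
  obtain ⟨p, hp, hpx⟩ := hx
  -- transport the polynomial to `V`
  have hmem : ∀ a : K, algebraMap K L a ∈ V := by
    intro a
    have : a ∈ V.comap (algebraMap K L) := by
      rw [h]
      exact ValuationSubring.mem_top a
    exact this
  let φ : K →+* V := (algebraMap K L).codRestrict V.toSubring hmem
  have hφ : (algebraMap V L).comp φ = algebraMap K L := by
    ext a
    rfl
  have hint : IsIntegral V x := by
    refine ⟨p.map φ, hp.map φ, ?_⟩
    rw [Polynomial.eval₂_map, hφ]
    exact hpx
  obtain ⟨y, hy⟩ := IsIntegrallyClosed.algebraMap_eq_of_integral hint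
  rw [← hy]
  exact y.2

section Main

/-- elements integral over `A₀` lie in every valuation subring over `A₀` -/
theorem mem_of_isIntegral (A₀ : ValuationSubring K) (A : ValuationSubring L)
    (hA₀ : A.comap (algebraMap K L) = A₀) {x : L} (hx : IsIntegral A₀ x) : x ∈ A := by
  obtain ⟨p, hp, hpx⟩ := hx
  have hmem : ∀ a : A₀, algebraMap A₀ L a ∈ A := by
    intro a
    have : (a : K) ∈ A.comap (algebraMap K L) := by
      rw [hA₀]
      exact a.2
    exact this
  let φ : A₀ →+* A := (algebraMap A₀ L).codRestrict A.toSubring hmem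
  have hφ : (algebraMap A L).comp φ = algebraMap A₀ L := by
    ext a
    rfl
  have hint : IsIntegral A x := by
    refine ⟨p.map φ, hp.map φ, ?_⟩
    rw [Polynomial.eval₂_map, hφ]
    exact hpx
  obtain ⟨y, hy⟩ := IsIntegrallyClosed.algebraMap_eq_of_integral hint
  rw [← hy]
  exact y.2

/-- if `A` is the only valuation subring of `L` over the DVR `A₀`, then `A` is the integral closure
of `A₀` in `L` -/
theorem isIntegral_of_mem [Algebra.IsAlgebraic K L] (A₀ : ValuationSubring K)
    [IsDiscreteValuationRing A₀] (A : ValuationSubring L)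
    (huniq : ∀ A' : ValuationSubring L, A'.comap (algebraMap K L) = A₀ → A' = A)
    {x : L} (hx : x ∈ A) : IsIntegral A₀ x := by
  by_contra hnot
  have hxR : x ∉ (integralClosure A₀ L).toSubring := hnot
  obtain ⟨V, hV, hxV⟩ :=
    Subring.exists_le_valuationSubring_of_isIntegrallyClosedIn (K := L) hxR
  -- `V` contains the image of `A₀`
  have hle : A₀ ≤ V.comap (algebraMap K L) := by
    intro a ha
    rw [ValuationSubring.mem_comap]
    apply hV
    exact (integralClosure A₀ L).algebraMap_mem ⟨a, ha⟩
  rcases eq_or_eq_top_of_le A₀ _ hle with h | h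
  · rw [huniq V h] at hxV
    exact hxV hx
  · rw [eq_top_of_comap_eq_top V h] at hxV
    exact hxV (ValuationSubring.mem_top x)

/-- **Full residue degree.** -/
theorem exists_indep_of_unique [FiniteDimensional K L] [Algebra.IsSeparable K L]
    (A₀ : ValuationSubring K) [IsDiscreteValuationRing A₀]
    (A : ValuationSubring L) (hA₀ : A.comap (algebraMap K L) = A₀)
    (ϖ : K) (hϖ : A₀.valuation ϖ < 1)
    (hϖA : ∀ x : L, A.valuation x < 1 → ∃ y ∈ A, x = algebraMap K L ϖ * y)
    (huniq : ∀ A' : ValuationSubring L, A'.comap (algebraMap K L) = A₀ → A' = A) :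
    ∃ y : Fin (Module.finrank K L) → L, (∀ i, y i ∈ A) ∧
      ∀ c : Fin (Module.finrank K L) → K, (∀ i, c i ∈ A₀) →
        A.valuation (∑ i, algebraMap K L (c i) * y i) < 1 → ∀ i, A₀.valuation (c i) < 1 := by
  classical
  have hfree : Module.Free A₀ (integralClosure A₀ L) :=
    IsIntegralClosure.module_free A₀ K L (integralClosure A₀ L)
  have hfin : Module.Finite A₀ (integralClosure A₀ L) :=
    IsIntegralClosure.finite A₀ K L (integralClosure A₀ L)
  have hrank : Module.finrank A₀ (integralClosure A₀ L) = Module.finrank K L :=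
    IsIntegralClosure.rank A₀ K L (integralClosure A₀ L)
  let b : Module.Basis (Fin (Module.finrank K L)) A₀ (integralClosure A₀ L) :=
    Module.finBasisOfFinrankEq A₀ (integralClosure A₀ L) hrank
  have hϖmem : ϖ ∈ A₀ := (A₀.valuation_le_one_iff ϖ).mp hϖ.le
  refine ⟨fun i => ((b i : integralClosure A₀ L) : L), fun i => ?_, ?_⟩
  · exact mem_of_isIntegral A₀ A hA₀ (b i).2
  · intro c hc hlt i
    -- the combination, as an element of the integral closure
    let c' : Fin (Module.finrank K L) → A₀ := fun i => ⟨c i, hc i⟩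
    have hx : (∑ i, algebraMap K L (c i) * ((b i : integralClosure A₀ L) : L)) =
        ((∑ i, c' i • b i : integralClosure A₀ L) : L) := by
      rw [AddSubmonoidClass.coe_finsetSum]
      refine Finset.sum_congr rfl fun i _ => ?_
      rw [Subalgebra.coe_smul, Algebra.smul_def]
      rfl
    obtain ⟨z, hzA, hz⟩ := hϖA _ hlt
    have hzint : IsIntegral A₀ z := isIntegral_of_mem A₀ A huniq hzA
    let z' : integralClosure A₀ L := ⟨z, hzint⟩
    -- expand `z'` in the basis
    have hz' : z' = ∑ i, b.repr z' i • b i := (b.sum_repr z').symm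
    have heq : (∑ i, c' i • b i : integralClosure A₀ L) =
        ∑ i, ((⟨ϖ, hϖmem⟩ : A₀) * b.repr z' i) • b i := by
      apply Subtype.ext
      rw [← hx, hz]
      have : (algebraMap K L ϖ * z : L) =
          (((⟨ϖ, hϖmem⟩ : A₀) • z' : integralClosure A₀ L) : L) := by
        rw [Subalgebra.coe_smul, Algebra.smul_def]
        rfl
      rw [this]
      congr 1
      conv_lhs => rw [hz', Finset.smul_sum]
      refine Finset.sum_congr rfl fun i _ => ?_
      rw [smul_smul]
    have hci : c' i = (⟨ϖ, hϖmem⟩ : A₀) * b.repr z' i := by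
      have h1 := congrArg (fun t => b.repr t i) heq
      simpa [map_sum, map_smul, Finsupp.single_apply] using h1
    have hci' : c i = ϖ * ((b.repr z' i : A₀) : K) := by
      have := congrArg (fun t : A₀ => (t : K)) hci
      simpa [c'] using this
    rw [hci', map_mul]
    calc A₀.valuation ϖ * A₀.valuation ((b.repr z' i : A₀) : K)
        ≤ A₀.valuation ϖ * 1 := by
          exact mul_le_mul_right (A₀.valuation_le_one (b.repr z' i)) _
      _ = A₀.valuation ϖ := mul_one _
      _ < 1 := hϖ

end Main

end Fermat.Agent.S48.B.Igusa.Degree
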