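/-
PROJECT D (S48, Deligne–Serre), PART B, block B2 (Igusa for `X₁(M)`), brick (D) (helper25):
UNIQUE GAUSS-VERTICAL VALUATION RING WITH UNIFORMISER `ℓ` ⟹ RESIDUE DEGREE = DEGREE.

`F / L` a field extension, `x : F`, `W` a valuation subring of `L` (a DVR with uniformiser `ℓ`),
`π : W →+* k` its residue map, `O` a valuation subring of `F` with residue map `red : O →+* κ`
(onto, kernel the maximal ideal), extending `π`, with `x ∈ O` of transcendental reduction `x̄`, and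
every nonzero element of `F` a power of `ℓ` times a unit of `O`.

* `IsVert W ℓ x V` : `V` contains `W` and `x`, `ℓ` is not a unit of `V`, and the polynomials in `x`
  over `W` with a unit coefficient are units of `V` (the hypotheses of main's
  `S36/GaussUniqX0.eq_O0_of_vert`); `isVert_self`;
* `isDVR_below` : `O ∩ L(x)` is a discrete valuation ring;
* `red_below_mem`, `exists_red_below_eq`, `redBase` : the reduction of `O ∩ L(x)` is `k(x̄)`;
* **`finrank_res_eq`** : if `O` is the only Gauss-vertical valuation subring of `F`, then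
  `[κ : k(x̄)] = [F : L(x)]` (`Degree.exists_indep_of_unique` + main's `S18/C/UnramVal.Hyp`).
-/
import Mathlib
import Fermat.Agent.S18.C.GaussRing
import Fermat.Agent.S18.C.UnramVal
import Fermat.Agent.S48.B.Igusa.Degree

set_option autoImplicit false
set_option linter.unusedSectionVars false

noncomputable section

namespace Fermat.Agent.S48.B.Igusa.GaussBase

open Polynomial IntermediateField
open Fermat.Agent.S18.C.GaussRing (IsPrim exists_smul_isPrim)
open Fermat.Agent.S18.C.Defs (polyV mem_polyV)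

/-! ### A domain with a prime element and unit-times-power factorisation is a DVR -/

theorem isDVR_of_factorization {R : Type*} [CommRing R] [IsDomain R] (p : R) (hp : ¬ IsUnit p)
    (hp0 : p ≠ 0) (h : ∀ x : R, x ≠ 0 → ∃ (n : ℕ) (u : Rˣ), x = u * p ^ n) :
    IsDiscreteValuationRing R := by
  have hirr : Irreducible p := by
    refine ⟨hp, fun a b hab => ?_⟩
    have ha0 : a ≠ 0 := by
      rintro rfl
      rw [zero_mul] at hab
      exact hp0 hab
    have hb0 : b ≠ 0 := by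
      rintro rfl
      rw [mul_zero] at hab
      exact hp0 hab
    obtain ⟨m, u, rfl⟩ := h a ha0
    obtain ⟨m', u', rfl⟩ := h b hb0
    rcases Nat.eq_zero_or_pos m with hm | hm
    · left
      rw [hm, pow_zero, mul_one]
      exact u.isUnit
    rcases Nat.eq_zero_or_pos m' with hm' | hm'
    · right
      rw [hm', pow_zero, mul_one]
      exact u'.isUnit
    exfalso
    apply hp
    -- `p = (u u') p^(m+m')` with `m + m' ≥ 2`
    obtain ⟨a, rfl⟩ : ∃ a, m = a + 1 := ⟨m - 1, by omega⟩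
    obtain ⟨b, rfl⟩ : ∃ b, m' = b + 1 := ⟨m' - 1, by omega⟩
    have h1 : p * 1 = p * ((u : R) * u' * p ^ (a + b + 1)) := by
      rw [mul_one]
      conv_lhs => rw [hab]
      ring
    have h2 := mul_left_cancel₀ hp0 h1
    refine IsUnit.of_mul_eq_one ((u : R) * u' * p ^ (a + b)) ?_
    rw [h2]
    ring
  refine IsDiscreteValuationRing.ofHasUnitMulPowIrreducibleFactorization
    ⟨p, hirr, fun {x} hx => ?_⟩
  obtain ⟨n, u, hu⟩ := h x hx
  refine ⟨n, ?_⟩
  rw [hu, mul_comm]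
  exact associated_mul_unit_right _ _ u.isUnit


/-! ### The setting -/

section Setting

variable {L F : Type*} [Field L] [Field F] [Algebra L F]
variable (W : ValuationSubring L) (ℓ : ℕ)
variable {k κ : Type*} [Field k] [Field κ] [Algebra k κ]
variable (π : W →+* k)
variable (O : ValuationSubring F) (red : O →+* κ) (x : F)

/-- **Gauss-vertical** valuation subrings (with respect to `W`, `ℓ`, `x`): they contain `W` and `x`,
`ℓ` is not a unit, and the polynomials in `x` over `W` with a unit coefficient are units. -/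
def IsVert (V : ValuationSubring F) : Prop :=
  (∀ c : W, algebraMap L F (c : L) ∈ V) ∧ x ∈ V ∧ (((ℓ : ℕ) : F))⁻¹ ∉ V ∧
    ∀ s : W[X], (∃ i, IsUnit (s.coeff i)) → (Polynomial.aeval x (s.map W.subtype))⁻¹ ∈ V

variable {W O x}
variable (hbase : ∀ c : W, algebraMap L F (c : L) ∈ O) (hxO : x ∈ O)

/-- the constants -/
def baseHom : W →+* O where
  toFun c := ⟨algebraMap L F (c : L), hbase c⟩
  map_one' := Subtype.ext (by simp)
  map_mul' a b := Subtype.ext (by simp)
  map_zero' := Subtype.ext (by simp)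
  map_add' a b := Subtype.ext (by simp)

/-- polynomials in `x` over `W`, inside `O` -/
def evO : W[X] →+* O := Polynomial.eval₂RingHom (baseHom hbase) ⟨x, hxO⟩

theorem coe_evO (p : W[X]) :
    ((evO hbase hxO p : O) : F) = Polynomial.aeval x (p.map W.subtype) := by
  have h : (O.subtype.comp (evO hbase hxO)) =
      ((Polynomial.aeval x : L[X] →ₐ[L] F) : L[X] →+* F).comp
        (Polynomial.mapRingHom W.subtype) := by
    refine Polynomial.ringHom_ext (fun a => ?_) ?_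
    · simp [evO, baseHom]
    · simp [evO]
  exact RingHom.congr_fun h p

variable {π red}

theorem red_evO (hredc : ∀ c : W, red (baseHom hbase c) = algebraMap k κ (π c)) (p : W[X]) :
    red (evO hbase hxO p) = Polynomial.aeval (red ⟨x, hxO⟩) (p.map π) := by
  have h : (red.comp (evO hbase hxO)) =
      ((Polynomial.aeval (red ⟨x, hxO⟩) : k[X] →ₐ[k] κ) : k[X] →+* κ).comp
        (Polynomial.mapRingHom π) := by
    refine Polynomial.ringHom_ext (fun a => ?_) ?_
    · simp [evO, hredc]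
    · simp [evO]
  exact RingHom.congr_fun h p

end Setting


/-! ### The Gauss ring below -/

section Main

open Fermat.Agent.S18.C.UnramVal

variable {L F : Type*} [Field L] [Field F] [Algebra L F]
variable {W : ValuationSubring L} {ℓ : ℕ}
variable {k κ : Type*} [Field k] [Field κ] [Algebra k κ]
variable {π : W →+* k}
variable {O : ValuationSubring F} {red : O →+* κ} {x : F}
variable (hπk : ∀ a : W, π a = 0 ↔ ¬ IsUnit a)
variable (hℓW : ¬ IsUnit (((ℓ : ℕ) : W)))
variable (hbase : ∀ c : W, algebraMap L F (c : L) ∈ O) (hxO : x ∈ O)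
variable (hredc : ∀ c : W, red (baseHom hbase c) = algebraMap k κ (π c))
variable (htr : Transcendental k (red ⟨x, hxO⟩))
variable (hker : ∀ u : O, red u = 0 ↔ ¬ IsUnit u)

include hπk hredc htr in
/-- polynomials with a unit coefficient have nonzero reduction -/
theorem red_evO_ne_zero (s : W[X]) (hs : ∃ i, IsUnit (s.coeff i)) :
    red (evO hbase hxO s) ≠ 0 := by
  rw [red_evO hbase hxO hredc]
  intro h0
  have h1 := (transcendental_iff.mp htr) _ h0
  obtain ⟨i, hi⟩ := hs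
  have h2 := congrArg (fun p : k[X] => p.coeff i) h1
  simp only [Polynomial.coeff_map, Polynomial.coeff_zero] at h2
  exact ((hπk _).mp h2) hi

include hker in
theorem inv_mem_of_red_ne_zero (u : O) (hu : red u ≠ 0) : ((u : F))⁻¹ ∈ O := by
  have hunit : IsUnit u := by
    by_contra hnu
    exact hu ((hker u).mpr hnu)
  obtain ⟨v, hv⟩ := hunit.exists_right_inv
  have h1 : (u : F) * (v : F) = 1 := congrArg Subtype.val hv
  rw [inv_eq_of_mul_eq_one_right h1]
  exact v.2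

include hπk hℓW hredc hker in
theorem inv_natCast_notMem (hℓF : ((ℓ : ℕ) : F) ≠ 0) : (((ℓ : ℕ) : F))⁻¹ ∉ O := by
  intro hmem
  have h1 : red (baseHom hbase ((ℓ : ℕ) : W)) = 0 := by
    rw [hredc, (hπk _).mpr hℓW, map_zero]
  have h2 : ¬ IsUnit (baseHom hbase ((ℓ : ℕ) : W)) := (hker _).mp h1
  apply h2
  refine IsUnit.of_mul_eq_one (⟨_, hmem⟩ : O) ?_
  apply Subtype.ext
  show algebraMap L F ((((ℓ : ℕ) : W) : W) : L) * (((ℓ : ℕ) : F))⁻¹ = 1
  have h3 : algebraMap L F ((((ℓ : ℕ) : W) : W) : L) = ((ℓ : ℕ) : F) := by simp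
  rw [h3]
  exact mul_inv_cancel₀ hℓF


include hπk hℓW hredc hker htr in
/-- the ring itself is Gauss-vertical -/
theorem isVert_self (hℓF : ((ℓ : ℕ) : F) ≠ 0) : IsVert W ℓ x O := by
  refine ⟨hbase, hxO, inv_natCast_notMem hπk hℓW hbase hredc hker hℓF, fun s hs => ?_⟩
  rw [← coe_evO hbase hxO]
  exact inv_mem_of_red_ne_zero hker _ (red_evO_ne_zero hπk hbase hxO hredc htr s hs)

/-- unit-times-power factorisation in the ring below -/
theorem exists_unit_mul_pow_below (E : IntermediateField L F)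
    (hℓinv : (((ℓ : ℕ) : F))⁻¹ ∉ O)
    (hval : ∀ f : F, f ≠ 0 → ∃ (n : ℤ) (u : Oˣ), f = ((ℓ : ℕ) : F) ^ n * ((u : O) : F))
    (e : ↥(below ↥E O)) (he : e ≠ 0) :
    ∃ (n : ℕ) (u : (↥(below ↥E O))ˣ), e = u * ((ℓ : ℕ) : ↥(below ↥E O)) ^ n := by
  have hℓF : ((ℓ : ℕ) : F) ≠ 0 := by
    intro h0
    apply hℓinv
    rw [h0, inv_zero]
    exact O.zero_mem
  have hℓE : ((ℓ : ℕ) : ↥E) ≠ 0 := by
    intro h0
    apply hℓF
    have := congrArg (algebraMap ↥E F) h0
    simpa using this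
  have he0 : ((e : ↥E) : F) ≠ 0 := by
    intro h0
    apply he
    apply Subtype.ext
    apply Subtype.ext
    exact h0
  have heO : ((e : ↥E) : F) ∈ O := e.2
  obtain ⟨n, u, hu⟩ := hval _ he0
  have hn : 0 ≤ n := by
    by_contra hneg
    rw [not_le] at hneg
    obtain ⟨m, hm⟩ : ∃ m : ℕ, n = -((m : ℤ) + 1) := ⟨(-n - 1).toNat, by omega⟩
    apply hℓinv
    have h1 : (((ℓ : ℕ) : F))⁻¹ =
        ((e : ↥E) : F) * (((u⁻¹ : Oˣ) : O) : F) * ((ℓ : ℕ) : F) ^ m := by
      have h2 : ((u : O) : F) * (((u⁻¹ : Oˣ) : O) : F) = 1 :=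
        congrArg Subtype.val u.mul_inv
      rw [hu, hm, mul_assoc, mul_assoc, ← mul_assoc ((u : O) : F), h2, one_mul,
        ← zpow_natCast, ← zpow_add₀ hℓF, ← zpow_neg_one]
      congr 1
      ring
    rw [h1]
    exact O.mul_mem _ _ (O.mul_mem _ _ heO (u⁻¹ : Oˣ).1.2) (O.pow_mem (natCast_mem O ℓ) m)
  obtain ⟨N, rfl⟩ := Int.eq_ofNat_of_zero_le hn
  rw [zpow_natCast] at hu
  -- the unit lies in `E`
  set uE : ↥E := (e : ↥E) / ((ℓ : ℕ) : ↥E) ^ N with huE
  have huEF : ((uE : ↥E) : F) = ((u : O) : F) := by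
    rw [huE]
    push_cast
    rw [hu]
    field_simp
  have huinvF : (((uE⁻¹ : ↥E)) : F) = (((u⁻¹ : Oˣ) : O) : F) := by
    push_cast
    rw [huEF]
    have h2 : ((u : O) : F) * (((u⁻¹ : Oˣ) : O) : F) = 1 :=
      congrArg Subtype.val u.mul_inv
    exact inv_eq_of_mul_eq_one_right h2
  have huE0 : uE ≠ 0 := by
    intro h0
    have h3 : ((u : O) : F) = 0 := by rw [← huEF, h0]; rfl
    have h2 : ((u : O) : F) * (((u⁻¹ : Oˣ) : O) : F) = 1 :=
      congrArg Subtype.val u.mul_inv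
    rw [h3, zero_mul] at h2
    exact zero_ne_one h2
  have hmem1 : uE ∈ below ↥E O := by
    show algebraMap ↥E F uE ∈ O
    have : algebraMap ↥E F uE = ((u : O) : F) := huEF
    rw [this]
    exact u.1.2
  have hmem2 : uE⁻¹ ∈ below ↥E O := by
    show algebraMap ↥E F uE⁻¹ ∈ O
    have : algebraMap ↥E F uE⁻¹ = (((u⁻¹ : Oˣ) : O) : F) := huinvF
    rw [this]
    exact (u⁻¹ : Oˣ).1.2
  refine ⟨N, ⟨⟨uE, hmem1⟩, ⟨uE⁻¹, hmem2⟩, ?_, ?_⟩, ?_⟩
  · apply Subtype.ext
    show uE * uE⁻¹ = 1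
    exact mul_inv_cancel₀ huE0
  · apply Subtype.ext
    show uE⁻¹ * uE = 1
    exact inv_mul_cancel₀ huE0
  · apply Subtype.ext
    show (e : ↥E) = uE * (((((ℓ : ℕ) : ↥(below ↥E O)) ^ N : ↥(below ↥E O))) : ↥E)
    push_cast
    rw [huE]
    field_simp


/-- the ring below is a discrete valuation ring with uniformiser `ℓ` -/
theorem isDVR_below (E : IntermediateField L F)
    (hℓinv : (((ℓ : ℕ) : F))⁻¹ ∉ O)
    (hval : ∀ f : F, f ≠ 0 → ∃ (n : ℤ) (u : Oˣ), f = ((ℓ : ℕ) : F) ^ n * ((u : O) : F)) :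
    IsDiscreteValuationRing ↥(below ↥E O) := by
  have hℓF : ((ℓ : ℕ) : F) ≠ 0 := by
    intro h0
    apply hℓinv
    rw [h0, inv_zero]
    exact O.zero_mem
  refine isDVR_of_factorization (((ℓ : ℕ) : ↥(below ↥E O))) ?_ ?_
    (exists_unit_mul_pow_below E hℓinv hval)
  · intro hu
    obtain ⟨v, hv⟩ := hu.exists_right_inv
    apply hℓinv
    have h1 : ((ℓ : ℕ) : F) * (((v : ↥E)) : F) = 1 := by
      have := congrArg (fun z : ↥(below ↥E O) => (((z : ↥E)) : F)) hv
      simpa using this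
    rw [inv_eq_of_mul_eq_one_right h1]
    exact v.2
  · intro h0
    apply hℓF
    have := congrArg (fun z : ↥(below ↥E O) => (((z : ↥E)) : F)) h0
    simpa using this

variable (hπs : Function.Surjective π)

include hπk hredc htr hker in
/-- **the reduction of the Gauss ring of `L(x)` lies in `k(x̄)`** -/
theorem red_below_mem (e : ↥(below ↥L⟮x⟯ O)) :
    red (incl ↥L⟮x⟯ O e) ∈ k⟮red ⟨x, hxO⟩⟯ := by
  have heE : ((e : ↥L⟮x⟯) : F) ∈ L⟮x⟯ := (e : ↥L⟮x⟯).2
  obtain ⟨r, s, hrs⟩ := (IntermediateField.mem_adjoin_simple_iff L _).mp heE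
  by_cases hs0 : Polynomial.aeval x s = 0
  · have h0 : incl ↥L⟮x⟯ O e = 0 := by
      apply Subtype.ext
      show ((e : ↥L⟮x⟯) : F) = 0
      rw [hrs, hs0, div_zero]
    rw [h0, map_zero]
    exact zero_mem _
  have hsne : s ≠ 0 := by
    rintro rfl
    exact hs0 (map_zero _)
  obtain ⟨c, hc, hprim⟩ := exists_smul_isPrim W (p := s) hsne
  obtain ⟨s₀, hs₀⟩ := hprim.1
  have hs₀' : s₀.map W.subtype = C c * s := hs₀
  have hs₀u : ∃ i, IsUnit (s₀.coeff i) := by
    obtain ⟨i, hi⟩ := hprim.2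
    refine ⟨i, (W.valuation_eq_one_iff _).mpr ?_⟩
    have : ((s₀.coeff i : W) : L) = (C c * s).coeff i := by
      rw [← hs₀', Polynomial.coeff_map]
      rfl
    rw [this]
    exact hi
  have hcF : algebraMap L F c ≠ 0 := by rwa [Ne, map_eq_zero]
  have hevs : ((evO hbase hxO s₀ : O) : F) = algebraMap L F c * Polynomial.aeval x s := by
    rw [coe_evO, hs₀', map_mul, Polynomial.aeval_C]
  have hsred : red (evO hbase hxO s₀) ≠ 0 := red_evO_ne_zero hπk hbase hxO hredc htr s₀ hs₀u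
  by_cases hr0 : r = 0
  · have h0 : incl ↥L⟮x⟯ O e = 0 := by
      apply Subtype.ext
      show ((e : ↥L⟮x⟯) : F) = 0
      rw [hrs, hr0, map_zero, zero_div]
    rw [h0, map_zero]
    exact zero_mem _
  have hr'ne : C c * r ≠ 0 := mul_ne_zero (by rwa [Ne, Polynomial.C_eq_zero]) hr0
  obtain ⟨c', hc', hprim'⟩ := exists_smul_isPrim W (p := C c * r) hr'ne
  obtain ⟨r₀, hr₀⟩ := hprim'.1
  have hr₀' : r₀.map W.subtype = C c' * (C c * r) := hr₀
  have hr₀u : ∃ i, IsUnit (r₀.coeff i) := by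
    obtain ⟨i, hi⟩ := hprim'.2
    refine ⟨i, (W.valuation_eq_one_iff _).mpr ?_⟩
    have : ((r₀.coeff i : W) : L) = (C c' * (C c * r)).coeff i := by
      rw [← hr₀', Polynomial.coeff_map]
      rfl
    rw [this]
    exact hi
  have hrred : red (evO hbase hxO r₀) ≠ 0 := red_evO_ne_zero hπk hbase hxO hredc htr r₀ hr₀u
  -- the key relation in `O`
  have hrel : ((evO hbase hxO r₀ : O) : F) =
      algebraMap L F c' * (((incl ↥L⟮x⟯ O e : O) : F) * ((evO hbase hxO s₀ : O) : F)) := by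
    rw [coe_evO, hr₀', map_mul, map_mul, Polynomial.aeval_C, Polynomial.aeval_C, hevs]
    show _ = algebraMap L F c' * (((e : ↥L⟮x⟯) : F) * _)
    rw [hrs]
    field_simp
  -- `c'⁻¹ ∈ W`
  have hc'W : c'⁻¹ ∈ W := by
    by_contra hnot
    have hcW : c' ∈ W := (W.mem_or_inv_mem c').resolve_right hnot
    have hnu : ¬ IsUnit (⟨c', hcW⟩ : W) := by
      intro hu
      obtain ⟨v, hv⟩ := hu.exists_right_inv
      apply hnot
      have h1 : c' * (v : L) = 1 := congrArg Subtype.val hv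
      rw [inv_eq_of_mul_eq_one_right h1]
      exact v.2
    apply hrred
    have h2 : evO hbase hxO r₀ =
        baseHom hbase ⟨c', hcW⟩ * (incl ↥L⟮x⟯ O e * evO hbase hxO s₀) := Subtype.ext hrel
    rw [h2, map_mul, hredc, (hπk _).mpr hnu, map_zero, zero_mul]
  -- the relation divided by `c'`
  have hrel2 : baseHom hbase ⟨c'⁻¹, hc'W⟩ * evO hbase hxO r₀ =
      incl ↥L⟮x⟯ O e * evO hbase hxO s₀ := by
    apply Subtype.ext
    show algebraMap L F c'⁻¹ * ((evO hbase hxO r₀ : O) : F) = _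
    rw [hrel, ← mul_assoc, ← map_mul, inv_mul_cancel₀ hc', map_one, one_mul]
    rfl
  have h3 := congrArg red hrel2
  rw [map_mul, map_mul, hredc, red_evO hbase hxO hredc, red_evO hbase hxO hredc] at h3
  have hsred' : Polynomial.aeval (red ⟨x, hxO⟩) (s₀.map π) ≠ 0 := by
    rw [← red_evO hbase hxO hredc]
    exact hsred
  rw [IntermediateField.mem_adjoin_simple_iff]
  refine ⟨C (π ⟨c'⁻¹, hc'W⟩) * r₀.map π, s₀.map π, ?_⟩
  rw [eq_div_iff hsred', ← h3, map_mul, Polynomial.aeval_C]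


include hπk hredc htr hker hπs in
/-- every element of `k(x̄)` is the reduction of an element of the ring below -/
theorem exists_red_below_eq (ybar : κ) (hy : ybar ∈ k⟮red ⟨x, hxO⟩⟯) :
    ∃ e : ↥(below ↥L⟮x⟯ O), red (incl ↥L⟮x⟯ O e) = ybar := by
  obtain ⟨rb, sb, hrs⟩ := (IntermediateField.mem_adjoin_simple_iff k _).mp hy
  by_cases hs0 : Polynomial.aeval (red ⟨x, hxO⟩) sb = 0
  · refine ⟨0, ?_⟩
    rw [map_zero, map_zero, hrs, hs0, div_zero]
  obtain ⟨r₀, rfl⟩ := Polynomial.map_surjective π hπs rb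
  obtain ⟨s₀, rfl⟩ := Polynomial.map_surjective π hπs sb
  have hs₀u : ∃ i, IsUnit (s₀.coeff i) := by
    have hne : s₀.map π ≠ 0 := by
      intro h0
      rw [h0, map_zero] at hs0
      exact hs0 rfl
    by_contra hcon
    apply hne
    ext i
    rw [Polynomial.coeff_map, Polynomial.coeff_zero, hπk]
    exact fun hu => hcon ⟨i, hu⟩
  have hsred : red (evO hbase hxO s₀) ≠ 0 := red_evO_ne_zero hπk hbase hxO hredc htr s₀ hs₀u
  have hinv := inv_mem_of_red_ne_zero hker _ hsred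
  -- the quotient, as an element of `L(x)`
  have hxE : x ∈ L⟮x⟯ := IntermediateField.mem_adjoin_simple_self L x
  set eE : ↥L⟮x⟯ := Polynomial.aeval (⟨x, hxE⟩ : ↥L⟮x⟯) (r₀.map W.subtype) /
    Polynomial.aeval (⟨x, hxE⟩ : ↥L⟮x⟯) (s₀.map W.subtype) with heE
  have hcoe : ∀ p : L[X], ((Polynomial.aeval (⟨x, hxE⟩ : ↥L⟮x⟯) p : ↥L⟮x⟯) : F) =
      Polynomial.aeval x p := by
    intro p
    have := Polynomial.aeval_algebraMap_apply (A := ↥L⟮x⟯) F (⟨x, hxE⟩ : ↥L⟮x⟯) p
    exact this.symm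
  have heF : ((eE : ↥L⟮x⟯) : F) =
      ((evO hbase hxO r₀ : O) : F) * (((evO hbase hxO s₀ : O) : F))⁻¹ := by
    rw [heE]
    push_cast
    rw [hcoe, hcoe, coe_evO, coe_evO, div_eq_mul_inv]
  have hmem : eE ∈ below ↥L⟮x⟯ O := by
    show algebraMap ↥L⟮x⟯ F eE ∈ O
    have : algebraMap ↥L⟮x⟯ F eE = ((eE : ↥L⟮x⟯) : F) := rfl
    rw [this, heF]
    exact O.mul_mem _ _ (evO hbase hxO r₀).2 hinv
  refine ⟨⟨eE, hmem⟩, ?_⟩
  have hrel : incl ↥L⟮x⟯ O ⟨eE, hmem⟩ * evO hbase hxO s₀ = evO hbase hxO r₀ := by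
    apply Subtype.ext
    show ((eE : ↥L⟮x⟯) : F) * ((evO hbase hxO s₀ : O) : F) = _
    rw [heF, mul_assoc, inv_mul_cancel₀, mul_one]
    intro h0
    apply hsred
    have : evO hbase hxO s₀ = 0 := Subtype.ext h0
    rw [this, map_zero]
  have h3 := congrArg red hrel
  rw [map_mul, red_evO hbase hxO hredc, red_evO hbase hxO hredc] at h3
  rw [hrs, eq_div_iff hs0, h3]

include hπk hredc htr hker in
/-- the reduction of the ring below, with values in `k(x̄)` -/
def redBase : ↥(below ↥L⟮x⟯ O) →+* ↥(k⟮red ⟨x, hxO⟩⟯) :=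
  (red.comp (incl ↥L⟮x⟯ O)).codRestrict (k⟮red ⟨x, hxO⟩⟯)
    (fun e => red_below_mem hπk hbase hxO hredc htr hker e)

theorem coe_redBase (e : ↥(below ↥L⟮x⟯ O)) :
    ((redBase hπk hbase hxO hredc htr hker e : ↥(k⟮red ⟨x, hxO⟩⟯)) : κ) =
      red (incl ↥L⟮x⟯ O e) := rfl


omit [Algebra L F] in
theorem val_lt_one_iff {K : Type*} [Field K] (A : ValuationSubring K) (z : K) :
    A.valuation z < 1 ↔ z = 0 ∨ z⁻¹ ∉ A := by
  rw [← ValuationSubring.mem_nonunits_iff, ValuationSubring.mem_nonunits_iff_or]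

include hπk hℓW hredc htr hker hπs in
/-- **Unique Gauss-vertical valuation ring with uniformiser `ℓ` ⟹ residue degree = degree.** -/
theorem finrank_res_eq [FiniteDimensional ↥L⟮x⟯ F] [Algebra.IsSeparable ↥L⟮x⟯ F]
    (hsurj : Function.Surjective red)
    (hℓF : ((ℓ : ℕ) : F) ≠ 0)
    (hval : ∀ f : F, f ≠ 0 → ∃ (n : ℤ) (u : Oˣ), f = ((ℓ : ℕ) : F) ^ n * ((u : O) : F))
    (huniq : ∀ V : ValuationSubring F, IsVert W ℓ x V → V = O) :
    FiniteDimensional ↥(k⟮red ⟨x, hxO⟩⟯) κ ∧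
      Module.finrank ↥(k⟮red ⟨x, hxO⟩⟯) κ = Module.finrank ↥L⟮x⟯ F := by
  classical
  have hℓinv : (((ℓ : ℕ) : F))⁻¹ ∉ O := inv_natCast_notMem hπk hℓW hbase hredc hker hℓF
  have := isDVR_below (O := O) (ℓ := ℓ) L⟮x⟯ hℓinv hval
  have hxE : x ∈ L⟮x⟯ := IntermediateField.mem_adjoin_simple_self L x
  -- the uniformiser
  have hϖ : (below ↥L⟮x⟯ O).valuation (((ℓ : ℕ) : ↥L⟮x⟯)) < 1 := by
    rw [val_lt_one_iff]
    right
    intro hmem
    apply hℓinv
    have : algebraMap ↥L⟮x⟯ F (((ℓ : ℕ) : ↥L⟮x⟯))⁻¹ ∈ O := hmem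
    rwa [map_inv₀, map_natCast] at this
  have hϖA : ∀ f : F, O.valuation f < 1 →
      ∃ y ∈ O, f = algebraMap ↥L⟮x⟯ F (((ℓ : ℕ) : ↥L⟮x⟯)) * y := by
    intro f hf
    rw [val_lt_one_iff] at hf
    rcases hf with rfl | hf
    · exact ⟨0, O.zero_mem, by rw [mul_zero]⟩
    have hf0 : f ≠ 0 := by
      rintro rfl
      rw [inv_zero] at hf
      exact hf O.zero_mem
    obtain ⟨n, u, hu⟩ := hval f hf0
    have hn : 1 ≤ n := by
      by_contra hlt
      rw [not_le] at hlt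
      obtain ⟨m, hm⟩ : ∃ m : ℕ, n = -(m : ℤ) := ⟨(-n).toNat, by omega⟩
      apply hf
      have h2 : ((u : O) : F) * (((u⁻¹ : Oˣ) : O) : F) = 1 := congrArg Subtype.val u.mul_inv
      have h1 : f⁻¹ = ((ℓ : ℕ) : F) ^ m * (((u⁻¹ : Oˣ) : O) : F) := by
        rw [hu, hm, mul_inv, ← zpow_neg, neg_neg, zpow_natCast,
          inv_eq_of_mul_eq_one_right h2]
      rw [h1]
      exact O.mul_mem _ _ (O.pow_mem (natCast_mem O ℓ) m) (u⁻¹ : Oˣ).1.2
    obtain ⟨m, hm⟩ : ∃ m : ℕ, n = (m : ℤ) + 1 := ⟨(n - 1).toNat, by omega⟩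
    refine ⟨((ℓ : ℕ) : F) ^ m * ((u : O) : F),
      O.mul_mem _ _ (O.pow_mem (natCast_mem O ℓ) m) u.1.2, ?_⟩
    rw [hu, hm, map_natCast, zpow_add₀ hℓF, zpow_natCast, zpow_one]
    ring
  -- uniqueness in the `comap` form
  have huniq' : ∀ A' : ValuationSubring F,
      A'.comap (algebraMap ↥L⟮x⟯ F) = below ↥L⟮x⟯ O → A' = O := by
    intro A' hA'
    apply huniq
    have hiff : ∀ z : ↥L⟮x⟯, algebraMap ↥L⟮x⟯ F z ∈ A' ↔ algebraMap ↥L⟮x⟯ F z ∈ O := by
      intro z
      rw [← ValuationSubring.mem_comap, hA']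
      rfl
    have hO := isVert_self hπk hℓW hbase hxO hredc htr hker hℓF
    refine ⟨fun c => ?_, ?_, ?_, fun s hs => ?_⟩
    · have h1 : algebraMap L F (c : L) = algebraMap ↥L⟮x⟯ F (algebraMap L ↥L⟮x⟯ (c : L)) :=
        IsScalarTower.algebraMap_apply L ↥L⟮x⟯ F _
      rw [h1, hiff, ← h1]
      exact hO.1 c
    · have h1 : x = algebraMap ↥L⟮x⟯ F ⟨x, hxE⟩ := rfl
      rw [h1, hiff, ← h1]
      exact hO.2.1
    · have h1 : (((ℓ : ℕ) : F))⁻¹ = algebraMap ↥L⟮x⟯ F (((ℓ : ℕ) : ↥L⟮x⟯))⁻¹ := by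
        rw [map_inv₀, map_natCast]
      rw [h1, hiff, ← h1]
      exact hO.2.2.1
    · have h1 : (Polynomial.aeval x (s.map W.subtype))⁻¹ =
          algebraMap ↥L⟮x⟯ F
            (Polynomial.aeval (⟨x, hxE⟩ : ↥L⟮x⟯) (s.map W.subtype))⁻¹ := by
        rw [map_inv₀]
        congr 1
        exact Polynomial.aeval_algebraMap_apply (A := ↥L⟮x⟯) F (⟨x, hxE⟩ : ↥L⟮x⟯) _
      rw [h1, hiff, ← h1]
      exact hO.2.2.2 s hs
  obtain ⟨y, hyO, hind⟩ := Degree.exists_indep_of_unique (below ↥L⟮x⟯ O) O rfl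
    (((ℓ : ℕ) : ↥L⟮x⟯)) hϖ hϖA huniq'
  -- the package
  set t : Fin (Module.finrank ↥L⟮x⟯ F) → ↥O := fun i => ⟨y i, hyO i⟩ with ht
  have hnu_iff : ∀ u : O, ¬ IsUnit u ↔ O.valuation (u : F) < 1 := by
    intro u
    rw [val_lt_one_iff]
    constructor
    · intro hnu
      by_cases h0 : (u : F) = 0
      · exact Or.inl h0
      · right
        intro hinv
        apply hnu
        refine IsUnit.of_mul_eq_one (⟨_, hinv⟩ : O) ?_
        apply Subtype.ext
        show (u : F) * (u : F)⁻¹ = 1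
        exact mul_inv_cancel₀ h0
    · rintro (h0 | hinv) hu
      · have : u = 0 := Subtype.ext h0
        rw [this] at hu
        exact not_isUnit_zero hu
      · obtain ⟨v, hv⟩ := hu.exists_right_inv
        have h1 : (u : F) * (v : F) = 1 := congrArg Subtype.val hv
        apply hinv
        rw [inv_eq_of_mul_eq_one_right h1]
        exact v.2
  have hyp : Hyp ↥L⟮x⟯ O red (redBase hπk hbase hxO hredc htr hker) t := by
    refine ⟨hker, hsurj, fun e => rfl, ?_, by rw [Fintype.card_fin]⟩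
    rw [Fintype.linearIndependent_iff]
    intro g hg i
    -- lift the coefficients
    have hlift : ∀ j, ∃ e : ↥(below ↥L⟮x⟯ O), red (incl ↥L⟮x⟯ O e) = ((g j : ↥(k⟮red ⟨x, hxO⟩⟯)) : κ) :=
      fun j => exists_red_below_eq hπk hbase hxO hredc htr hker hπs _ (g j).2
    choose c hc using hlift
    have hsum : red (∑ j, incl ↥L⟮x⟯ O (c j) * t j) = 0 := by
      rw [map_sum, ← hg]
      refine Finset.sum_congr rfl fun j _ => ?_
      rw [map_mul, hc j, Algebra.smul_def]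
      rfl
    have hlt : O.valuation (∑ j, algebraMap ↥L⟮x⟯ F ((c j : ↥L⟮x⟯)) * y j) < 1 := by
      have h1 := (hnu_iff _).mp ((hker _).mp hsum)
      have h2 : ((∑ j, incl ↥L⟮x⟯ O (c j) * t j : O) : F) =
          ∑ j, algebraMap ↥L⟮x⟯ F ((c j : ↥L⟮x⟯)) * y j := by
        rw [AddSubmonoidClass.coe_finsetSum]
        rfl
      rwa [h2] at h1
    have h3 := hind (fun j => (c j : ↥L⟮x⟯)) (fun j => (c j).2) hlt i
    -- `c i` is a non-unit of `O`
    have h4 : O.valuation (algebraMap ↥L⟮x⟯ F ((c i : ↥L⟮x⟯))) < 1 := by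
      rw [val_lt_one_iff] at h3 ⊢
      rcases h3 with h0 | hinv
      · left
        rw [h0, map_zero]
      · right
        intro hmem
        apply hinv
        show algebraMap ↥L⟮x⟯ F ((c i : ↥L⟮x⟯))⁻¹ ∈ O
        rwa [map_inv₀]
    have h5 : red (incl ↥L⟮x⟯ O (c i)) = 0 := (hker _).mpr ((hnu_iff _).mpr h4)
    apply Subtype.ext
    rw [← hc i, h5]
    rfl
  exact ⟨Module.Finite.of_basis hyp.basisRes, hyp.finrank_res⟩

end Main

end Fermat.Agent.S48.B.Igusa.GaussBase
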