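/-
PROJECT D (S48, Deligne–Serre), PART B, block B2 (Igusa for `X₁(M)`), brick (S) (helper25):
THE REPRESENTATION PROPERTY `HasRep` BY `ℓ`-SATURATION, before any degree statement.

`R` a domain, `π : R →+* k` onto a field of characteristic `ℓ` with kernel `(ℓ)`, every nonzero
element of `R` a unit times a power of `ℓ` (a discrete valuation ring with uniformiser `ℓ`).
`I` a subring of `ℤ((q))` with `ℓ y ∈ I → y ∈ I` (the `ℤ`-integral elements of a subfield of `ℚ((q))`),
`T = R`-span of the image of `I` in `R((q))`.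

* `saturated` : `x ∈ T`, `x ≡ 0 mod ℓ` ⟹ `x = ℓ y`, `y ∈ T`  (induction on the number of terms of a
  representation; the dependency modulo `ℓ` over `k` descends to `𝔽_ℓ` by main's `S24/LinDisjoint`);
* `exists_pow_smul` : every nonzero `x ∈ T` is `ℓ ^ m y`, `y ∈ T` of nonzero reduction;
* `isFrac_of_mem` : every element of `laurentBaseChange L F₀` is a quotient of two elements of `T`
  (`A` a valuation subring of `L`, `R = A`) when `F₀` consists of quotients of `ℤ`-integral elements;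
* **`hasRep`** : `Red.GaussG.HasRep A π F₀ Fk` as soon as `Fk` contains the reductions of the
  `ℤ`-integral elements of `F₀`;
* `ratio_adjoin` : a subfield of `ℚ((q))` generated by `ℤ`-integral series consists of quotients of
  its `ℤ`-integral elements.
No hypothesis on `ℓ` (`2` and `3` included), no degree, no Galois theory.
-/
import Mathlib
import Fermat.Agent.S24.LinDisjoint
import Fermat.Agent.S48.B.Red.GaussG

set_option autoImplicit false
set_option linter.unusedSectionVars false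

noncomputable section

namespace Fermat.Agent.S48.B.Igusa.Saturate

open HahnSeries ModularCurve

section Ring

variable (R : Type*) [CommRing R]

/-- coefficientwise `ℤ → R` -/
abbrev iR : LaurentSeries ℤ →+* LaurentSeries R := coeffMap (Int.castRingHom R)

variable {R} (ℓ : ℕ) [Fact ℓ.Prime]

/-- a Laurent series over `ℤ` which vanishes modulo `ℓ` is divisible by `ℓ` -/
theorem exists_smul_of_coeffMap_eq_zero (y : LaurentSeries ℤ)
    (h : coeffMap (Int.castRingHom (ZMod ℓ)) y = 0) :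
    ∃ y' : LaurentSeries ℤ, y = (ℓ : ℤ) • y' := by
  have hdvd : ∀ n, (ℓ : ℤ) ∣ y.coeff n := fun n => by
    have h1 := congrArg (fun z : LaurentSeries (ZMod ℓ) => z.coeff n) h
    simp only [coeffMap_coeff, HahnSeries.coeff_zero] at h1
    exact (ZMod.intCast_zmod_eq_zero_iff_dvd _ _).1 h1
  refine ⟨y.map (⟨fun a => a / (ℓ : ℤ), by simp⟩ : ZeroHom ℤ ℤ), ?_⟩
  ext n
  rw [HahnSeries.coeff_smul, HahnSeries.map_coeff]
  show y.coeff n = (ℓ : ℤ) • (y.coeff n / (ℓ : ℤ))
  rw [smul_eq_mul, Int.mul_ediv_cancel' (hdvd n)]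

variable {k : Type*} [Field k] [Algebra (ZMod ℓ) k] (π : R →+* k)
variable (I : Subring (LaurentSeries ℤ))

/-- the `R`-span of the integral elements -/
def T : Submodule R (LaurentSeries R) :=
  Submodule.span R (iR R '' (I : Set (LaurentSeries ℤ)))

variable {I} in
theorem iR_mem_T {P : LaurentSeries ℤ} (hP : P ∈ I) : iR R P ∈ T (R := R) I :=
  Submodule.subset_span ⟨P, hP, rfl⟩

/-- reduction modulo `ℓ` of an integral series -/
abbrev rd : LaurentSeries ℤ →+* LaurentSeries (ZMod ℓ) := coeffMap (Int.castRingHom (ZMod ℓ))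

theorem coeffMap_pi_iR (P : LaurentSeries ℤ) :
    coeffMap π (iR R P) =
      (Fermat.Agent.S24.LinDisjoint.bc (rd ℓ P) : LaurentSeries k) := by
  rw [coeffMap_coeffMap, coeffMap_coeffMap]
  exact coeffMap_congr (RingHom.ext_int _ _) P

theorem coeffMap_smul (c : R) (x : LaurentSeries R) :
    coeffMap π (c • x) = π c • coeffMap π x := by
  ext n
  rw [coeffMap_coeff, HahnSeries.coeff_smul, HahnSeries.coeff_smul, coeffMap_coeff, smul_eq_mul,
    smul_eq_mul, map_mul]

theorem pi_natCast_self : π ((ℓ : ℕ) : R) = 0 := by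
  rw [map_natCast]
  have h : ((ℓ : ℕ) : k) = algebraMap (ZMod ℓ) k ((ℓ : ℕ) : ZMod ℓ) := by rw [map_natCast]
  rw [h, ZMod.natCast_self, map_zero]

theorem iR_zsmul (r : ℤ) (P : LaurentSeries ℤ) : iR R (r • P) = (r : R) • iR R P := by
  rw [map_zsmul, Int.cast_smul_eq_zsmul]


open Classical in
/-- **`ℓ`-saturation of the span of the integral elements**, representation form. -/
theorem saturated_aux (hker : ∀ a : R, π a = 0 → ∃ b, a = ((ℓ : ℕ) : R) * b)
    (hunit : ∀ a : R, π a ≠ 0 → IsUnit a)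
    (hsat : ∀ y : LaurentSeries ℤ, (ℓ : ℤ) • y ∈ I → y ∈ I) :
    ∀ (n : ℕ) (s : Finset (LaurentSeries ℤ)), s.card = n → (∀ P ∈ s, P ∈ I) →
      ∀ c : LaurentSeries ℤ → R, coeffMap π (∑ P ∈ s, c P • iR R P) = 0 →
        ∃ y ∈ T (R := R) I, ∑ P ∈ s, c P • iR R P = ((ℓ : ℕ) : R) • y := by
  intro n
  induction n using Nat.strong_induction_on with
  | _ n ih =>
  intro s hcard hs c h0
  set S' := s.filter (fun P => π (c P) ≠ 0) with hS'
  by_cases hS : S' = ∅
  · -- every coefficient is divisible by `ℓ`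
    have h1 : ∀ P ∈ s, ∃ b, c P = ((ℓ : ℕ) : R) * b := by
      intro P hP
      refine hker _ ?_
      by_contra hne
      have : P ∈ S' := Finset.mem_filter.mpr ⟨hP, hne⟩
      rw [hS] at this
      exact absurd this (Finset.notMem_empty _)
    choose! b hb using h1
    refine ⟨∑ P ∈ s, b P • iR R P,
      Submodule.sum_mem _ fun P hP => Submodule.smul_mem _ _ (iR_mem_T (hs P hP)), ?_⟩
    rw [Finset.smul_sum]
    refine Finset.sum_congr rfl fun P hP => ?_
    rw [hb P hP, mul_smul]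
  · -- a dependency modulo `ℓ`
    have hS'sub : ∀ P ∈ S', P ∈ s := fun P hP => (Finset.mem_filter.mp hP).1
    have hred : ∑ P ∈ S', π (c P) • (Fermat.Agent.S24.LinDisjoint.bc (rd ℓ P) : LaurentSeries k)
        = 0 := by
      rw [← h0, map_sum, hS', Finset.sum_filter]
      refine Finset.sum_congr rfl fun P _ => ?_
      rw [coeffMap_smul, coeffMap_pi_iR ℓ π]
      by_cases hP : π (c P) ≠ 0
      · rw [if_pos hP]
      · rw [if_neg hP, not_not.mp hP, zero_smul]
    have hnli : ¬ LinearIndependent k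
        (fun P : S' => (Fermat.Agent.S24.LinDisjoint.bc (rd ℓ P.1) : LaurentSeries k)) := by
      intro hli
      have h2 := Fintype.linearIndependent_iff.mp hli (fun P => π (c P.1))
        (by
          rw [← hred]
          exact Finset.sum_coe_sort S'
            (fun P => π (c P) • (Fermat.Agent.S24.LinDisjoint.bc (rd ℓ P) : LaurentSeries k)))
      obtain ⟨P₀, hP₀⟩ := Finset.nonempty_iff_ne_empty.mpr hS
      exact (Finset.mem_filter.mp hP₀).2 (h2 ⟨P₀, hP₀⟩)
    have hnli' : ¬ LinearIndependent (ZMod ℓ) (fun P : S' => rd ℓ P.1) := fun h =>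
      hnli (Fermat.Agent.S24.LinDisjoint.linearIndependent_bc h)
    obtain ⟨g, hg, ⟨P₀, hgP₀⟩⟩ := Fintype.not_linearIndependent_iff.mp hnli'
    -- integer lifts of the coefficients
    set r : LaurentSeries ℤ → ℤ := fun P => if h : P ∈ S' then ((g ⟨P, h⟩).val : ℤ) else 0 with hr
    have hrS : ∀ P : S', ((r P.1 : ℤ) : ZMod ℓ) = g P := by
      intro P
      rw [hr]
      simp only
      rw [dif_pos P.2, Int.cast_natCast, ZMod.natCast_zmod_val]
    have hr0 : ∀ P, P ∉ S' → r P = 0 := by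
      intro P hP
      rw [hr]
      simp only
      rw [dif_neg hP]
    set Q : LaurentSeries ℤ := ∑ P ∈ s, r P • P with hQ
    have hQI : Q ∈ I := Subring.sum_mem _ fun P hP => Subring.zsmul_mem _ (hs P hP) _
    have hQ0 : rd ℓ Q = 0 := by
      rw [hQ, map_sum]
      have h3 : ∑ P ∈ s, rd ℓ (r P • P) = ∑ P ∈ S', rd ℓ (r P • P) := by
        rw [hS', Finset.sum_filter]
        refine Finset.sum_congr rfl fun P _ => ?_
        by_cases hP : π (c P) ≠ 0
        · rw [if_pos hP]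
        · rw [if_neg hP]
          have : P ∉ S' := fun h => hP (Finset.mem_filter.mp h).2
          rw [hr0 P this, zero_smul, map_zero]
      rw [h3, ← Finset.sum_coe_sort S' (fun P => rd ℓ (r P • P)), ← hg]
      refine Finset.sum_congr rfl fun P _ => ?_
      rw [map_zsmul, ← hrS P, Int.cast_smul_eq_zsmul]
    obtain ⟨P', hP'⟩ := exists_smul_of_coeffMap_eq_zero ℓ Q hQ0
    have hP'I : P' ∈ I := hsat P' (hP' ▸ hQI)
    -- the coefficient of `P₀` is a unit
    have hu : IsUnit ((r P₀.1 : ℤ) : R) := by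
      refine hunit _ ?_
      rw [map_intCast]
      have h4 : ((r P₀.1 : ℤ) : k) = algebraMap (ZMod ℓ) k (((r P₀.1 : ℤ)) : ZMod ℓ) := by
        rw [map_intCast]
      rw [h4, hrS P₀]
      exact (map_ne_zero_iff _ (algebraMap (ZMod ℓ) k).injective).mpr hgP₀
    obtain ⟨u, hu⟩ := hu
    set a : R := c P₀.1 * ((u⁻¹ : Rˣ) : R) with ha
    set c' : LaurentSeries ℤ → R := fun P => c P - a * ((r P : ℤ) : R) with hc'
    have hc'P₀ : c' P₀.1 = 0 := by
      rw [hc']
      simp only
      rw [ha, ← hu, mul_assoc, Units.inv_mul, mul_one, sub_self]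
    have hsumr : ∑ P ∈ s, ((r P : ℤ) : R) • iR R P = ((ℓ : ℕ) : R) • iR R P' := by
      have h5 : iR R Q = ∑ P ∈ s, ((r P : ℤ) : R) • iR R P := by
        rw [hQ, map_sum]
        exact Finset.sum_congr rfl fun P _ => iR_zsmul _ _
      rw [← h5, hP', iR_zsmul, Int.cast_natCast]
    have hident : ∑ P ∈ s, c P • iR R P =
        ∑ P ∈ s.erase P₀.1, c' P • iR R P + ((ℓ : ℕ) : R) • (a • iR R P') := by
      have h6 : ∑ P ∈ s, c' P • iR R P = ∑ P ∈ s.erase P₀.1, c' P • iR R P := by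
        rw [← Finset.add_sum_erase s _ (hS'sub _ P₀.2), hc'P₀, zero_smul, zero_add]
      have h7 : ∑ P ∈ s, c' P • iR R P =
          ∑ P ∈ s, c P • iR R P - a • (((ℓ : ℕ) : R) • iR R P') := by
        rw [← hsumr, Finset.smul_sum, ← Finset.sum_sub_distrib]
        refine Finset.sum_congr rfl fun P _ => ?_
        rw [hc']
        simp only
        rw [sub_smul, mul_smul]
      rw [← h6, h7, smul_comm a, sub_add_cancel]
    have h0' : coeffMap π (∑ P ∈ s.erase P₀.1, c' P • iR R P) = 0 := by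
      have h8 := h0
      rw [hident, map_add, coeffMap_smul, pi_natCast_self, zero_smul, add_zero] at h8
      exact h8
    have hcard' : (s.erase P₀.1).card < n := by
      rw [Finset.card_erase_of_mem (hS'sub _ P₀.2), hcard]
      have : 0 < s.card := Finset.card_pos.mpr ⟨P₀.1, hS'sub _ P₀.2⟩
      omega
    obtain ⟨y₁, hy₁, hy₁'⟩ := ih _ hcard' (s.erase P₀.1) rfl
      (fun P hP => hs P (Finset.mem_of_mem_erase hP)) c' h0'
    refine ⟨y₁ + a • iR R P', Submodule.add_mem _ hy₁ (Submodule.smul_mem _ _ (iR_mem_T hP'I)), ?_⟩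
    rw [hident, hy₁', smul_add]


/-- **`ℓ`-saturation of the span of the integral elements**: an element of the span whose reduction
vanishes is `ℓ` times an element of the span. -/
theorem saturated (hker : ∀ a : R, π a = 0 → ∃ b, a = ((ℓ : ℕ) : R) * b)
    (hunit : ∀ a : R, π a ≠ 0 → IsUnit a)
    (hsat : ∀ y : LaurentSeries ℤ, (ℓ : ℤ) • y ∈ I → y ∈ I)
    {x : LaurentSeries R} (hx : x ∈ T (R := R) I) (h0 : coeffMap π x = 0) :
    ∃ y ∈ T (R := R) I, x = ((ℓ : ℕ) : R) • y := by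
  classical
  obtain ⟨t, ht, c, rfl⟩ := (Submodule.mem_span_image_iff_exists_fun R).mp hx
  set c' : LaurentSeries ℤ → R := fun P => if h : P ∈ t then c ⟨P, h⟩ else 0 with hc'
  have hsum : ∑ i : t, c i • iR R i.1 = ∑ P ∈ t, c' P • iR R P := by
    rw [← Finset.sum_coe_sort t (fun P => c' P • iR R P)]
    refine Finset.sum_congr rfl fun i _ => ?_
    rw [hc']
    simp only
    rw [dif_pos i.2]
  rw [hsum] at h0 ⊢
  exact saturated_aux ℓ π I hker hunit hsat _ t rfl (fun P hP => ht hP) c' h0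

/-- every nonzero element of the span is a power of `ℓ` times an element of the span with nonzero
reduction -/
theorem exists_pow_smul [IsDomain R] (hℓ0 : ((ℓ : ℕ) : R) ≠ 0)
    (hker : ∀ a : R, π a = 0 → ∃ b, a = ((ℓ : ℕ) : R) * b)
    (hunit : ∀ a : R, π a ≠ 0 → IsUnit a)
    (hsat : ∀ y : LaurentSeries ℤ, (ℓ : ℤ) • y ∈ I → y ∈ I)
    (hfact : ∀ a : R, a ≠ 0 → ∃ (m : ℕ) (u : R), IsUnit u ∧ a = ((ℓ : ℕ) : R) ^ m * u)
    {x : LaurentSeries R} (hx : x ∈ T (R := R) I) (hx0 : x ≠ 0) :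
    ∃ (m : ℕ) (y : LaurentSeries R), y ∈ T (R := R) I ∧ x = ((ℓ : ℕ) : R) ^ m • y ∧
      coeffMap π y ≠ 0 := by
  have hex : ∃ n₀, x.coeff n₀ ≠ 0 := by
    by_contra hcon
    simp only [not_exists, not_not] at hcon
    exact hx0 (HahnSeries.ext (funext hcon))
  obtain ⟨n₀, hn₀⟩ := hex
  obtain ⟨m, u, hu, hxm⟩ := hfact _ hn₀
  clear hn₀ hx0
  induction m generalizing x u with
  | zero =>
    refine ⟨0, x, hx, by rw [pow_zero, one_smul], ?_⟩
    intro h0
    have h1 := congrArg (fun z : LaurentSeries k => z.coeff n₀) h0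
    simp only [coeffMap_coeff, HahnSeries.coeff_zero] at h1
    rw [hxm, pow_zero, one_mul] at h1
    exact (hu.map π).ne_zero h1
  | succ m ih =>
    by_cases h0 : coeffMap π x = 0
    · obtain ⟨y, hy, rfl⟩ := saturated ℓ π I hker hunit hsat hx h0
      have hy' : y.coeff n₀ = ((ℓ : ℕ) : R) ^ m * u := by
        rw [HahnSeries.coeff_smul, smul_eq_mul, pow_succ', mul_assoc] at hxm
        exact mul_left_cancel₀ hℓ0 hxm
      obtain ⟨m', y', hy'T, hyy', hne⟩ := ih hy u hu hy'
      refine ⟨m' + 1, y', hy'T, ?_, hne⟩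
      rw [hyy', pow_succ', mul_smul]
    · exact ⟨0, x, hx, by rw [pow_zero, one_smul], h0⟩


variable {I} in
theorem one_mem_T : (1 : LaurentSeries R) ∈ T (R := R) I := by
  rw [← map_one (iR R)]
  exact iR_mem_T I.one_mem

variable {I} in
theorem mul_mem_T {x y : LaurentSeries R} (hx : x ∈ T (R := R) I) (hy : y ∈ T (R := R) I) :
    x * y ∈ T (R := R) I := by
  unfold T at hx hy ⊢
  induction hx using Submodule.span_induction with
  | mem x hx =>
    obtain ⟨P, hP, rfl⟩ := hx
    induction hy using Submodule.span_induction with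
    | mem y hy =>
      obtain ⟨Q, hQ, rfl⟩ := hy
      exact Submodule.subset_span ⟨P * Q, I.mul_mem hP hQ, map_mul _ _ _⟩
    | zero => rw [mul_zero]; exact Submodule.zero_mem _
    | add y z _ _ hy hz => rw [mul_add]; exact Submodule.add_mem _ hy hz
    | smul a y _ hy =>
      rw [← HahnSeries.C_mul_eq_smul, mul_left_comm, HahnSeries.C_mul_eq_smul]
      exact Submodule.smul_mem _ _ hy
  | zero => rw [zero_mul]; exact Submodule.zero_mem _
  | add x z _ _ hx hz => rw [add_mul]; exact Submodule.add_mem _ hx hz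
  | smul a x _ hx =>
    rw [← HahnSeries.C_mul_eq_smul, mul_assoc, HahnSeries.C_mul_eq_smul]
    exact Submodule.smul_mem _ _ hx

end Ring


/-! ### The representation property -/

section Field

open Fermat.Agent.S48.B.Red.GaussG

variable {L : Type*} [Field L] [Algebra ℚ L] (A : ValuationSubring L)
variable (ℓ : ℕ) [Fact ℓ.Prime] {k : Type*} [Field k] [Algebra (ZMod ℓ) k] (π : A →+* k)
variable (F₀ : IntermediateField ℚ (LaurentSeries ℚ)) (Fk : IntermediateField k (LaurentSeries k))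

/-- the `ℤ`-integral elements of `F₀` -/
def intZ : Subring (LaurentSeries ℤ) :=
  F₀.toSubalgebra.toSubring.comap (coeffMap (Int.castRingHom ℚ))

variable {F₀} in
theorem mem_intZ {y : LaurentSeries ℤ} : y ∈ intZ F₀ ↔ coeffMap (Int.castRingHom ℚ) y ∈ F₀ :=
  Iff.rfl

theorem algebraMap_mul_eq_smul {K : Type*} [Field K] (c : K) (x : LaurentSeries K) :
    algebraMap K (LaurentSeries K) c * x = c • x := by
  rw [algebraMap_laurentSeries_eq_single]
  exact HahnSeries.C_mul_eq_smul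

theorem intZ_sat (y : LaurentSeries ℤ) (h : (ℓ : ℤ) • y ∈ intZ F₀) : y ∈ intZ F₀ := by
  rw [mem_intZ, map_zsmul] at h
  rw [mem_intZ]
  have hℓ : ((ℓ : ℤ) : ℚ) ≠ 0 := by exact_mod_cast (Fact.out : ℓ.Prime).ne_zero
  have h2 : coeffMap (Int.castRingHom ℚ) y =
      algebraMap ℚ (LaurentSeries ℚ) (((ℓ : ℤ) : ℚ))⁻¹ *
        ((ℓ : ℤ) • coeffMap (Int.castRingHom ℚ) y) := by
    rw [← Int.cast_smul_eq_zsmul ℚ, algebraMap_mul_eq_smul, smul_smul, inv_mul_cancel₀ hℓ,
      one_smul]
  rw [h2]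
  exact F₀.mul_mem (F₀.algebraMap_mem _) h

theorem coeffMap_subtype_iR (y : LaurentSeries ℤ) :
    coeffMap A.subtype (iR A y) = coeffEmb L (coeffMap (Int.castRingHom ℚ) y) := by
  rw [coeffEmb, coeffMap_coeffMap, coeffMap_coeffMap]
  exact coeffMap_congr (RingHom.ext_int _ _) y

omit [Algebra ℚ L] in
theorem coeffMap_pi_iR' (y : LaurentSeries ℤ) :
    coeffMap π (iR A y) = coeffMap (Int.castRingHom k) y := by
  rw [coeffMap_coeffMap]
  exact coeffMap_congr (RingHom.ext_int _ _) y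

variable {A π F₀ Fk} in
/-- the span of the integral elements consists of integral elements -/
theorem mem_intRing_of_mem_T
    (hFk : ∀ y ∈ intZ F₀, coeffMap (Int.castRingHom k) y ∈ Fk)
    {x : LaurentSeries A} (hx : x ∈ T (R := A) (intZ F₀)) : x ∈ intRing A π F₀ Fk := by
  unfold T at hx
  induction hx using Submodule.span_induction with
  | mem x hx =>
    obtain ⟨P, hP, rfl⟩ := hx
    rw [mem_intRing, coeffMap_subtype_iR, coeffMap_pi_iR']
    exact ⟨coeffEmb_mem_laurentBaseChange L hP, hFk P hP⟩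
  | zero => exact Subring.zero_mem _
  | add x y _ _ hx hy => exact Subring.add_mem _ hx hy
  | smul a x _ hx =>
    rw [← HahnSeries.C_mul_eq_smul]
    exact Subring.mul_mem _ (C_mem_intRing a) hx

/-- `f` is a quotient of two elements of the span of the integral elements -/
def IsFrac (f : LaurentSeries L) : Prop :=
  ∃ N D : LaurentSeries A, N ∈ T (R := A) (intZ F₀) ∧ D ∈ T (R := A) (intZ F₀) ∧ D ≠ 0 ∧
    f * coeffMap A.subtype D = coeffMap A.subtype N


variable {A} in
theorem subtype_ne_zero {D : LaurentSeries A} (hD : D ≠ 0) : coeffMap A.subtype D ≠ 0 := fun h =>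
  hD (coeffMap_subtype_injective (by rw [h, map_zero]))

namespace IsFrac

variable {A F₀}

theorem zero : IsFrac A F₀ 0 :=
  ⟨0, 1, Submodule.zero_mem _, one_mem_T, one_ne_zero, by rw [zero_mul, map_zero]⟩

theorem one : IsFrac A F₀ 1 :=
  ⟨1, 1, one_mem_T, one_mem_T, one_ne_zero, by rw [one_mul]⟩

theorem add {f g : LaurentSeries L} (hf : IsFrac A F₀ f) (hg : IsFrac A F₀ g) :
    IsFrac A F₀ (f + g) := by
  obtain ⟨N, D, hN, hD, hD0, h⟩ := hf
  obtain ⟨N', D', hN', hD', hD0', h'⟩ := hg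
  refine ⟨N * D' + N' * D, D * D', Submodule.add_mem _ (mul_mem_T hN hD') (mul_mem_T hN' hD),
    mul_mem_T hD hD', ?_, ?_⟩
  · intro h0
    have := congrArg (coeffMap A.subtype) h0
    rw [map_mul, map_zero] at this
    exact mul_ne_zero (subtype_ne_zero hD0) (subtype_ne_zero hD0') this
  · rw [map_mul, map_add, map_mul, map_mul, ← h, ← h']
    ring

theorem neg {f : LaurentSeries L} (hf : IsFrac A F₀ f) : IsFrac A F₀ (-f) := by
  obtain ⟨N, D, hN, hD, hD0, h⟩ := hf
  exact ⟨-N, D, Submodule.neg_mem _ hN, hD, hD0, by rw [map_neg, ← h, neg_mul]⟩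

theorem mul {f g : LaurentSeries L} (hf : IsFrac A F₀ f) (hg : IsFrac A F₀ g) :
    IsFrac A F₀ (f * g) := by
  obtain ⟨N, D, hN, hD, hD0, h⟩ := hf
  obtain ⟨N', D', hN', hD', hD0', h'⟩ := hg
  refine ⟨N * N', D * D', mul_mem_T hN hN', mul_mem_T hD hD', ?_, ?_⟩
  · intro h0
    have := congrArg (coeffMap A.subtype) h0
    rw [map_mul, map_zero] at this
    exact mul_ne_zero (subtype_ne_zero hD0) (subtype_ne_zero hD0') this
  · rw [map_mul, map_mul, ← h, ← h']
    ring

theorem inv {f : LaurentSeries L} (hf : IsFrac A F₀ f) : IsFrac A F₀ f⁻¹ := by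
  rcases eq_or_ne f 0 with rfl | hf0
  · rw [inv_zero]
    exact zero
  obtain ⟨N, D, hN, hD, hD0, h⟩ := hf
  have hN0 : N ≠ 0 := by
    rintro rfl
    rw [map_zero] at h
    exact mul_ne_zero hf0 (subtype_ne_zero hD0) h
  refine ⟨D, N, hD, hN, hN0, ?_⟩
  rw [← h, ← mul_assoc, inv_mul_cancel₀ hf0, one_mul]

theorem const (a : L) : IsFrac A F₀ (algebraMap L (LaurentSeries L) a) := by
  rcases A.mem_or_inv_mem a with ha | ha
  · refine ⟨(⟨a, ha⟩ : A) • (1 : LaurentSeries A), 1, Submodule.smul_mem _ _ one_mem_T, one_mem_T,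
      one_ne_zero, ?_⟩
    rw [map_one, mul_one, coeffMap_smul, map_one, ← algebraMap_mul_eq_smul, mul_one]
    rfl
  · rcases eq_or_ne a 0 with rfl | ha0
    · rw [map_zero]
      exact zero
    have h1 : coeffMap A.subtype ((⟨a⁻¹, ha⟩ : A) • (1 : LaurentSeries A)) =
        algebraMap L (LaurentSeries L) a⁻¹ := by
      rw [coeffMap_smul, map_one, ← algebraMap_mul_eq_smul, mul_one]
      rfl
    refine ⟨1, (⟨a⁻¹, ha⟩ : A) • (1 : LaurentSeries A), one_mem_T,
      Submodule.smul_mem _ _ one_mem_T, ?_, ?_⟩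
    · intro h0
      rw [h0, map_zero] at h1
      exact inv_ne_zero ha0 ((map_eq_zero _).mp h1.symm)
    · rw [h1, map_one, ← map_mul, mul_inv_cancel₀ ha0, map_one]

theorem emb
    (hratio : ∀ z ∈ F₀, ∃ P Q : LaurentSeries ℤ, P ∈ intZ F₀ ∧ Q ∈ intZ F₀ ∧
      coeffMap (Int.castRingHom ℚ) Q ≠ 0 ∧
        z * coeffMap (Int.castRingHom ℚ) Q = coeffMap (Int.castRingHom ℚ) P)
    {z : LaurentSeries ℚ} (hz : z ∈ F₀) : IsFrac A F₀ (coeffEmb L z) := by
  obtain ⟨P, Q, hP, hQ, hQ0, h⟩ := hratio z hz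
  refine ⟨iR A P, iR A Q, iR_mem_T hP, iR_mem_T hQ, ?_, ?_⟩
  · intro h0
    have h1 := congrArg (coeffMap A.subtype) h0
    rw [coeffMap_subtype_iR, map_zero] at h1
    exact hQ0 ((map_eq_zero_iff _ (ModularCurve.coeffEmb L).injective).mp h1)
  · rw [coeffMap_subtype_iR, coeffMap_subtype_iR, ← map_mul, h]

end IsFrac

variable {A F₀} in
/-- every element of `laurentBaseChange L F₀` is a quotient of two elements of the span of the
integral elements, when `F₀` consists of quotients of `ℤ`-integral elements -/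
theorem isFrac_of_mem
    (hratio : ∀ z ∈ F₀, ∃ P Q : LaurentSeries ℤ, P ∈ intZ F₀ ∧ Q ∈ intZ F₀ ∧
      coeffMap (Int.castRingHom ℚ) Q ≠ 0 ∧
        z * coeffMap (Int.castRingHom ℚ) Q = coeffMap (Int.castRingHom ℚ) P)
    {f : LaurentSeries L} (hf : f ∈ laurentBaseChange L F₀) : IsFrac A F₀ f := by
  rw [mem_laurentBaseChange_iff] at hf
  induction hf using Subfield.closure_induction with
  | mem y hy =>
    rcases hy with ⟨a, rfl⟩ | ⟨z, hz, rfl⟩
    · exact IsFrac.const a
    · exact IsFrac.emb hratio hz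
  | one => exact IsFrac.one
  | add x y _ _ hx hy => exact hx.add hy
  | neg x _ hx => exact hx.neg
  | inv x _ hx => exact hx.inv
  | mul x y _ _ hx hy => exact hx.mul hy


variable {A F₀ Fk} in
/-- **The representation property** for the pair `(F₀, Fk)` over a discrete valuation ring `A` with
uniformiser `ℓ`: `F₀` consists of quotients of `ℤ`-integral elements and `Fk` contains the reductions
of the `ℤ`-integral elements of `F₀`. -/
theorem hasRep (hℓ0 : ((ℓ : ℕ) : A) ≠ 0)
    (hker : ∀ a : A, π a = 0 → ∃ b, a = ((ℓ : ℕ) : A) * b)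
    (hunit : ∀ a : A, π a ≠ 0 → IsUnit a)
    (hfact : ∀ a : A, a ≠ 0 → ∃ (m : ℕ) (u : A), IsUnit u ∧ a = ((ℓ : ℕ) : A) ^ m * u)
    (hFk : ∀ y ∈ intZ F₀, coeffMap (Int.castRingHom k) y ∈ Fk)
    (hratio : ∀ z ∈ F₀, ∃ P Q : LaurentSeries ℤ, P ∈ intZ F₀ ∧ Q ∈ intZ F₀ ∧
      coeffMap (Int.castRingHom ℚ) Q ≠ 0 ∧
        z * coeffMap (Int.castRingHom ℚ) Q = coeffMap (Int.castRingHom ℚ) P) :
    HasRep A π F₀ Fk := by
  intro f hf
  obtain ⟨N, D, hN, hD, hD0, h⟩ := isFrac_of_mem (A := A) hratio f.2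
  have hf0 : (f : LaurentSeries L) ≠ 0 := fun h0 => hf (Subtype.ext h0)
  have hN0 : N ≠ 0 := by
    rintro rfl
    rw [map_zero] at h
    exact mul_ne_zero hf0 (subtype_ne_zero hD0) h
  obtain ⟨m, N', hN', hNN', hrN⟩ :=
    exists_pow_smul ℓ π (intZ F₀) hℓ0 hker hunit (intZ_sat ℓ F₀) hfact hN hN0
  obtain ⟨m', D', hD', hDD', hrD⟩ :=
    exists_pow_smul ℓ π (intZ F₀) hℓ0 hker hunit (intZ_sat ℓ F₀) hfact hD hD0
  have hℓL : ((ℓ : ℕ) : L) ≠ 0 := by
    intro h0
    apply hℓ0
    apply Subtype.ext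
    show (((ℓ : ℕ) : A) : L) = ((0 : A) : L)
    rw [ZeroMemClass.coe_zero, ← h0]
    simp
  have hsub : ∀ (n : ℕ) (x : LaurentSeries A), coeffMap A.subtype ((((ℓ : ℕ) : A) ^ n) • x) =
      algebraMap L (LaurentSeries L) (((ℓ : ℕ) : L) ^ n) * coeffMap A.subtype x := by
    intro n x
    rw [coeffMap_smul, algebraMap_mul_eq_smul, map_pow, map_natCast]
  refine ⟨((ℓ : ℕ) : L) ^ m / ((ℓ : ℕ) : L) ^ m', ⟨N', mem_intRing_of_mem_T hFk hN'⟩,
    ⟨D', mem_intRing_of_mem_T hFk hD'⟩, div_ne_zero (pow_ne_zero _ hℓL) (pow_ne_zero _ hℓL),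
    ?_, ?_, ?_⟩
  · intro h0
    apply hrN
    have := congrArg Subtype.val h0
    rwa [coe_red] at this
  · intro h0
    apply hrD
    have := congrArg Subtype.val h0
    rwa [coe_red] at this
  · apply Subtype.ext
    show (f : LaurentSeries L) * coeffMap A.subtype D' =
      algebraMap L (LaurentSeries L) (((ℓ : ℕ) : L) ^ m / ((ℓ : ℕ) : L) ^ m') *
        coeffMap A.subtype N'
    rw [hNN', hDD', hsub, hsub] at h
    have hp : algebraMap L (LaurentSeries L) (((ℓ : ℕ) : L) ^ m') ≠ 0 := by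
      rw [Ne, map_eq_zero]
      exact pow_ne_zero _ hℓL
    rw [map_div₀, div_mul_eq_mul_div, eq_div_iff hp, ← h]
    ring

end Field


/-! ### Fields generated by `ℤ`-integral series consist of quotients of `ℤ`-integral elements -/

section Ratio

theorem coeffMap_intCast_injective :
    Function.Injective (coeffMap (Int.castRingHom ℚ)) := by
  intro x y h
  ext n
  have h1 := congrArg (fun z : LaurentSeries ℚ => z.coeff n) h
  simp only [coeffMap_coeff] at h1
  exact Int.cast_injective h1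

/-- a subfield of `ℚ((q))` generated by `ℤ`-integral series consists of quotients of its
`ℤ`-integral elements -/
theorem ratio_adjoin (S : Set (LaurentSeries ℚ))
    (hS : ∀ s ∈ S, ∃ P : LaurentSeries ℤ, coeffMap (Int.castRingHom ℚ) P = s) :
    ∀ z ∈ IntermediateField.adjoin ℚ S, ∃ P Q : LaurentSeries ℤ,
      P ∈ intZ (IntermediateField.adjoin ℚ S) ∧ Q ∈ intZ (IntermediateField.adjoin ℚ S) ∧
      coeffMap (Int.castRingHom ℚ) Q ≠ 0 ∧
        z * coeffMap (Int.castRingHom ℚ) Q = coeffMap (Int.castRingHom ℚ) P := by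
  intro z hz
  induction hz using IntermediateField.adjoin_induction with
  | mem x hx =>
    obtain ⟨P, rfl⟩ := hS x hx
    refine ⟨P, 1, IntermediateField.subset_adjoin ℚ S hx, Subring.one_mem _, ?_, ?_⟩
    · rw [map_one]; exact one_ne_zero
    · rw [map_one, mul_one]
  | algebraMap r =>
    refine ⟨(r.num : LaurentSeries ℤ), ((r.den : ℤ) : LaurentSeries ℤ), intCast_mem _ _,
      intCast_mem _ _, ?_, ?_⟩
    · rw [map_intCast]
      have h1 : (((r.den : ℤ)) : LaurentSeries ℚ) =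
          algebraMap ℚ (LaurentSeries ℚ) ((r.den : ℤ) : ℚ) := by rw [map_intCast]
      rw [h1, Ne, map_eq_zero]
      exact_mod_cast r.den_ne_zero
    · rw [map_intCast, map_intCast]
      have h1 : (((r.den : ℤ)) : LaurentSeries ℚ) =
          algebraMap ℚ (LaurentSeries ℚ) ((r.den : ℤ) : ℚ) := by rw [map_intCast]
      have h2 : ((r.num : ℤ) : LaurentSeries ℚ) =
          algebraMap ℚ (LaurentSeries ℚ) ((r.num : ℤ) : ℚ) := by rw [map_intCast]
      rw [h1, h2, ← map_mul, Int.cast_natCast, Rat.mul_den_eq_num]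
  | add x y _ _ hx hy =>
    obtain ⟨P, Q, hP, hQ, hQ0, h⟩ := hx
    obtain ⟨P', Q', hP', hQ', hQ0', h'⟩ := hy
    refine ⟨P * Q' + P' * Q, Q * Q', Subring.add_mem _ (Subring.mul_mem _ hP hQ')
      (Subring.mul_mem _ hP' hQ), Subring.mul_mem _ hQ hQ', ?_, ?_⟩
    · rw [map_mul]; exact mul_ne_zero hQ0 hQ0'
    · rw [map_mul, map_add, map_mul, map_mul, ← h, ← h']
      ring
  | inv x _ hx =>
    obtain ⟨P, Q, hP, hQ, hQ0, h⟩ := hx
    rcases eq_or_ne x 0 with rfl | hx0
    · refine ⟨0, 1, Subring.zero_mem _, Subring.one_mem _, ?_, ?_⟩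
      · rw [map_one]; exact one_ne_zero
      · rw [inv_zero, zero_mul, map_zero]
    · have hP0 : coeffMap (Int.castRingHom ℚ) P ≠ 0 := by
        rw [← h]
        exact mul_ne_zero hx0 hQ0
      refine ⟨Q, P, hQ, hP, hP0, ?_⟩
      rw [← h, ← mul_assoc, inv_mul_cancel₀ hx0, one_mul]
  | mul x y _ _ hx hy =>
    obtain ⟨P, Q, hP, hQ, hQ0, h⟩ := hx
    obtain ⟨P', Q', hP', hQ', hQ0', h'⟩ := hy
    refine ⟨P * P', Q * Q', Subring.mul_mem _ hP hP', Subring.mul_mem _ hQ hQ', ?_, ?_⟩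
    · rw [map_mul]; exact mul_ne_zero hQ0 hQ0'
    · rw [map_mul, map_mul, ← h, ← h']
      ring

end Ratio

end Fermat.Agent.S48.B.Igusa.Saturate
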