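/-
PROJECT D (S48, Deligne–Serre), PART B, block B2 (Igusa for `X₁(M)`), THE SEAMS (helper25).

`Unique1 M` is the only deep input of `IgusaDeg M` (file `Igusa/Final.lean` consumes it, file
`Igusa/Unique1.lean` produces it): over the inertia field `K0 A` (main's `S18/C/SmallDVR`; its
valuation ring `W A` is a DVR with uniformiser `ℓ` and algebraically closed residue field), any two
valuation subrings of `K0 A ⊗ F1 M` which are Gauss-vertical with respect to `j`
(`GaussBase.IsVert`: they contain `W A` and `j`, `ℓ` is a non-unit, and the polynomials in `j` over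
`W A` with a unit coefficient are units) coincide.
-/
import Mathlib
import Fermat.Agent.S18.C.SmallDVR
import Fermat.Agent.S48.B.Igusa.DegBC
import Fermat.Agent.S48.B.Igusa.GaussBase

set_option autoImplicit false

noncomputable section

namespace Fermat.Agent.S48.B.Igusa.Seams

open HahnSeries ModularCurve IntermediateField
open Fermat.Agent.S18.C.SmallDVR (K0 W)
open Fermat.Agent.S48.B.Defs.Model

local notation "Kb" => AlgebraicClosure ℚ

/-- **THE UNIQUENESS SEAM** (`Igusa/Unique1.lean`): over the inertia field `K0 A` with its DVR `W A`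
(uniformiser `ℓ`), any two valuation subrings of `K0 A ⊗ F1 M` that are Gauss-vertical with respect
to `j` coincide. -/
def Unique1 (M : ℕ) [NeZero M] : Prop :=
  ∀ (ℓ : ℕ) [Fact ℓ.Prime], ¬ ℓ ∣ M → ∀ A : ValuationSubring Kb, A.LiesOverPrime ℓ →
    ∀ V V' : ValuationSubring ↥(laurentBaseChange ↥(K0 A) (F1 M)),
      GaussBase.IsVert (W A) ℓ (DegBC.jL1 M ↥(K0 A)) V →
      GaussBase.IsVert (W A) ℓ (DegBC.jL1 M ↥(K0 A)) V' → V = V'

/-- **THE FINITENESS SEAM** (`Igusa/FiniteF1.lean` + helper12's package): `L ⊗ F1 M` is finite over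
`L(j)`. -/
def Finite1 (M : ℕ) [NeZero M] : Prop :=
  ∀ (L : Type) [Field L] [Algebra ℚ L],
    FiniteDimensional ↥L⟮DegBC.jL1 M L⟯ ↥(laurentBaseChange L (F1 M))

end Fermat.Agent.S48.B.Igusa.Seams
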