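/-
PROJECT D (S48, Deligne–Serre), PART B, block B2 (Igusa for `X₁(M)`), THE ASSEMBLY (helper25):
`IgusaDeg M` FROM THE UNIQUENESS OF THE GAUSS-VERTICAL VALUATION RING.

Over the inertia field `L = K0 A` (main's `S18/C/SmallDVR`: its valuation ring `W A` is a discrete
valuation ring with uniformiser `ℓ`, residue field `k = κ(A)`):

* `ratio_F1` : `F1 M` consists of quotients of its `ℤ`-integral elements (`Saturate.ratio_adjoin`);
* `hasRep1` : `GaussG.HasRep (W A) π (F1 M) (F1C M k)` (`Saturate.hasRep`), NO degree input, valid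
  in residue characteristic `2`, `3` too;
* `O1`, `red1` : the Gauss valuation ring of `L ⊗ F1 M` and its reduction onto `F1C M k`;
* `finrank_res` : under `Seams.Unique1 M` and the finiteness of `L ⊗ F1 M` over `L(j)`,
  `[F1C M k : k(j̄)] = [L ⊗ F1 M : L(j)]` (`GaussBase.finrank_res_eq`);
* **`igusaDeg`** : `Red.Seams.IgusaDeg M` (helper11's literal), through helper4's `DegBC.finrank_jL1`.
-/
import Mathlib
import Fermat.Agent.S18.C.SmallDVR
import Fermat.Agent.S18.ResidueBasics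
import Fermat.Agent.S28.ThetaAdjoin
import Fermat.Agent.S48.B.Red.GaussG
import Fermat.Agent.S48.B.Red.Gauss1
import Fermat.Agent.S48.B.Red.Seams
import Fermat.Agent.S48.B.Igusa.Saturate
import Fermat.Agent.S48.B.Igusa.GaussBase
import Fermat.Agent.S48.B.Igusa.DegBC
import Fermat.Agent.S48.B.Igusa.Seams

set_option autoImplicit false

noncomputable section

namespace Fermat.Agent.S48.B.Igusa.Final

open HahnSeries ModularCurve IntermediateField IsLocalRing
open Fermat.Agent.S18.C.SmallDVR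
open Fermat.Agent.S48.B.Defs.Model
open Fermat.Agent.S48.B.Red.GaussG Fermat.Agent.S48.B.Red.Gauss1 Fermat.Agent.S48.B.Red.Seams
open Fermat.Agent.S48.B.Igusa

local notation "Kb" => AlgebraicClosure ℚ

/-! ### `F1 M` is generated by `ℤ`-integral series -/

theorem coeffMap_frickeH {R S : Type*} [CommRing R] [CommRing S] (f : R →+* S) (M : ℕ) [NeZero M]
    (a : ZMod M) : coeffMap f (frickeH R M a) = frickeH S M a := by
  change coeffMap f (qExpand R M (HahnSeries.single (-1 : ℤ) (1 : R) *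
      HahnSeries.ofPowerSeries ℤ R (wNum.map (Int.castRingHom R))) *
      HahnSeries.ofPowerSeries ℤ R ((12 * tateX M a + 1).map (Int.castRingHom R))) =
    qExpand S M (HahnSeries.single (-1 : ℤ) (1 : S) *
      HahnSeries.ofPowerSeries ℤ S (wNum.map (Int.castRingHom S))) *
      HahnSeries.ofPowerSeries ℤ S ((12 * tateX M a + 1).map (Int.castRingHom S))
  have hc : ∀ p : PowerSeries ℤ,
      (p.map (Int.castRingHom R)).map f = p.map (Int.castRingHom S) := by
    intro p; ext n; simp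
  rw [map_mul, coeffMap_qExpand, map_mul, coeffMap_single, map_one,
    ModularCurve.coeffMap_ofPowerSeries, ModularCurve.coeffMap_ofPowerSeries, hc, hc]

variable (M : ℕ) [NeZero M]

theorem gen_integral : ∀ s ∈ divisorExpansions M ∪ frickeGenerators M,
    ∃ P : LaurentSeries ℤ, coeffMap (Int.castRingHom ℚ) P = s := by
  rintro s (⟨d, hd0, -, rfl⟩ | ⟨a, -, rfl⟩)
  · refine ⟨qExpand ℤ d (jqModC ℤ), ?_⟩
    rw [coeffMap_qExpand, coeffMap_jqModC, jqModC_rat]
  · exact ⟨frickeH ℤ M a, coeffMap_frickeH _ M a⟩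

/-- `F1 M` consists of quotients of its `ℤ`-integral elements -/
theorem ratio_F1 : ∀ z ∈ F1 M, ∃ P Q : LaurentSeries ℤ,
    P ∈ Saturate.intZ (F1 M) ∧ Q ∈ Saturate.intZ (F1 M) ∧
    coeffMap (Int.castRingHom ℚ) Q ≠ 0 ∧
      z * coeffMap (Int.castRingHom ℚ) Q = coeffMap (Int.castRingHom ℚ) P :=
  Saturate.ratio_adjoin (divisorExpansions M ∪ frickeGenerators M) (gen_integral M)

/-! ### The Gauss valuation ring over the inertia field -/

section Local

variable {A : ValuationSubring Kb} {ℓ : ℕ} [hℓ : Fact ℓ.Prime] (hA : A.LiesOverPrime ℓ)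

/-- the residue map of `W A` -/
abbrev piW (A : ValuationSubring Kb) : ↥(W A) →+* ResidueField A :=
  algebraMap ↥(W A) (ResidueField A)

theorem piW_eq_zero_iff (a : ↥(W A)) : piW A a = 0 ↔ ¬ IsUnit a := by
  rw [← RingHom.mem_ker, ker_algebraMap_W_k, mem_maximalIdeal, mem_nonunits_iff]

theorem natCast_W_ne_zero {n : ℕ} (hn : n ≠ 0) : ((n : ℕ) : ↥(W A)) ≠ 0 := by
  intro h
  have h1 := congrArg (fun x : ↥(W A) => ((x : ↥(K0 A)))) h
  simp only [ZeroMemClass.coe_zero] at h1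
  have h2 : (((n : ℕ) : ↥(W A)) : ↥(K0 A)) = ((n : ℕ) : ↥(K0 A)) := by simp
  rw [h2] at h1
  exact (Nat.cast_ne_zero.mpr hn) h1

include hA in
/-- **`HasRep` over the inertia field**, no degree input -/
theorem hasRep1 : HasRep (W A) (piW A) (F1 M) (F1C M (ResidueField A)) := by
  have := Fermat.Agent.S18.ResidueBasics.charP_residueField A hA
  let _ : Algebra (ZMod ℓ) (ResidueField A) := ZMod.algebra _ ℓ
  refine Saturate.hasRep ℓ (piW A) (natCast_W_ne_zero hℓ.out.ne_zero) ?_ ?_ ?_ ?_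
    (ratio_F1 M)
  · intro a ha
    have h1 : a ∈ Ideal.span {((ℓ : ℕ) : ↥(W A))} := by
      rw [← ker_algebraMap_W_k_eq_span A hA]; exact ha
    obtain ⟨b, hb⟩ := Ideal.mem_span_singleton'.mp h1
    exact ⟨b, by rw [← hb, mul_comm]⟩
  · intro a ha
    by_contra h
    exact ha ((piW_eq_zero_iff a).mpr h)
  · intro a ha
    obtain ⟨n, u, hu⟩ := exists_unit_mul_pow hA a ha
    exact ⟨n, (u : ↥(W A)), u.isUnit, by rw [hu, mul_comm]⟩
  · intro y hy
    exact coeffMap_mem_F1C M _ ((Saturate.mem_intZ).mp hy)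

/-! ### the factorisation `c = ℓ ^ n · w` in the inertia field -/

include hA in
theorem exists_zpow_mul_unit (c : ↥(K0 A)) (hc : c ≠ 0) :
    ∃ (n : ℤ) (w : (↥(W A))ˣ), c = ((ℓ : ℕ) : ↥(K0 A)) ^ n * (((w : ↥(W A)) : ↥(K0 A))) := by
  have hl0 : ((ℓ : ℕ) : ↥(K0 A)) ≠ 0 := Nat.cast_ne_zero.mpr hℓ.out.ne_zero
  have key : ∀ d : ↥(K0 A), d ≠ 0 → d ∈ W A →
      ∃ (n : ℤ) (w : (↥(W A))ˣ), d = ((ℓ : ℕ) : ↥(K0 A)) ^ n * (((w : ↥(W A)) : ↥(K0 A))) := by
    intro d hd hdW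
    have hd' : (⟨d, hdW⟩ : ↥(W A)) ≠ 0 := fun h => hd (congrArg Subtype.val h)
    obtain ⟨n, u, hu⟩ := exists_unit_mul_pow hA ⟨d, hdW⟩ hd'
    refine ⟨(n : ℤ), u, ?_⟩
    have h1 := congrArg (fun x : ↥(W A) => ((x : ↥(K0 A)))) hu
    simp only [MulMemClass.coe_mul, SubmonoidClass.coe_pow] at h1
    rw [zpow_natCast, mul_comm]
    refine h1.trans ?_
    congr 2
  rcases (W A).mem_or_inv_mem c with h | h
  · exact key c hc h
  · obtain ⟨n, w, hw⟩ := key c⁻¹ (inv_ne_zero hc) h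
    refine ⟨-n, w⁻¹, ?_⟩
    have hw0 : (((w : ↥(W A)) : ↥(K0 A))) ≠ 0 := by
      intro h0
      have : ((w : ↥(W A))) = 0 := Subtype.ext h0
      exact w.ne_zero this
    have hwinv : ((((w⁻¹ : (↥(W A))ˣ) : ↥(W A)) : ↥(K0 A))) = (((w : ↥(W A)) : ↥(K0 A)))⁻¹ := by
      apply eq_inv_of_mul_eq_one_left
      rw [← MulMemClass.coe_mul, Units.inv_mul]
      rfl
    rw [hwinv, zpow_neg, ← mul_inv, ← hw, inv_inv]

/-! ### the Gauss ring `O1`, its reduction, and the degree -/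

/-- the Gauss valuation ring of `K0 A ⊗ F1 M` -/
abbrev O1 (hrep : HasRep (W A) (piW A) (F1 M) (F1C M (ResidueField A))) :
    ValuationSubring ↥(laurentBaseChange ↥(K0 A) (F1 M)) :=
  OwV (W A) (piW A) (F1 M) (F1C M (ResidueField A)) hrep

/-- its reduction -/
abbrev red1 (hrep : HasRep (W A) (piW A) (F1 M) (F1C M (ResidueField A))) :
    ↥(O1 M hrep) →+* ↥(F1C M (ResidueField A)) :=
  redV (W A) (piW A) (F1 M) (F1C M (ResidueField A)) hrep

theorem jL1_eq_toFL :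
    DegBC.jL1 M ↥(K0 A) =
      toFL (W A) (piW A) (F1 M) (F1C M (ResidueField A)) (jI₁ (W A) (piW A) M) := by
  apply Subtype.ext
  rw [coe_toFL_jI₁]
  rfl

theorem jL1_mem_O1 (hrep : HasRep (W A) (piW A) (F1 M) (F1C M (ResidueField A))) :
    DegBC.jL1 M ↥(K0 A) ∈ O1 M hrep := by
  rw [jL1_eq_toFL]
  exact toFL_mem_OwV hrep _

theorem red1_jL1 (hrep : HasRep (W A) (piW A) (F1 M) (F1C M (ResidueField A))) :
    red1 M hrep ⟨DegBC.jL1 M ↥(K0 A), jL1_mem_O1 M hrep⟩ = jC M (ResidueField A) := by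
  have h := redV_toFL hrep (jI₁ (W A) (piW A) M)
  rw [red_jI₁] at h
  rw [← h]
  congr 1
  exact Subtype.ext (jL1_eq_toFL M)

theorem transcendental_jC (k : Type*) [Field k] : Transcendental k (jC M k) := by
  intro halg
  have h1 : IsAlgebraic k ((jC M k : ↥(F1C M k)) : LaurentSeries k) :=
    IntermediateField.isAlgebraic_iff.mp halg
  rw [coe_jC] at h1
  exact Fermat.Agent.S28.ThetaAdjoin.transcendental_jqModC k h1

include hA in
/-- **the residue degree equals the degree**, over the inertia field -/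
theorem finrank_res (hℓM : ¬ ℓ ∣ M) (hU : Seams.Unique1 M)
    (hfin : FiniteDimensional ↥(↥(K0 A))⟮DegBC.jL1 M ↥(K0 A)⟯
      ↥(laurentBaseChange ↥(K0 A) (F1 M))) :
    FiniteDimensional ↥((ResidueField A)⟮jC M (ResidueField A)⟯) ↥(F1C M (ResidueField A)) ∧
      Module.finrank ↥((ResidueField A)⟮jC M (ResidueField A)⟯) ↥(F1C M (ResidueField A)) =
        Module.finrank ↥(↥(K0 A))⟮DegBC.jL1 M ↥(K0 A)⟯ ↥(laurentBaseChange ↥(K0 A) (F1 M)) := by
  classical
  have hrep := hasRep1 M hA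
  have hπs : Function.Surjective (piW A) := algebraMap_W_k_surjective A hA
  have hbase : ∀ c : ↥(W A),
      algebraMap ↥(K0 A) ↥(laurentBaseChange ↥(K0 A) (F1 M)) (c : ↥(K0 A)) ∈ O1 M hrep :=
    fun c => algebraMap_mem_OwV hrep c
  have hxO := jL1_mem_O1 M hrep
  have hredc : ∀ c : ↥(W A), red1 M hrep (GaussBase.baseHom hbase c) =
      algebraMap (ResidueField A) ↥(F1C M (ResidueField A)) (piW A c) :=
    fun c => redV_algebraMap hrep c
  have htr : Transcendental (ResidueField A) (red1 M hrep ⟨DegBC.jL1 M ↥(K0 A), hxO⟩) := by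
    rw [red1_jL1]
    exact transcendental_jC M _
  have hker : ∀ u : ↥(O1 M hrep), red1 M hrep u = 0 ↔ ¬ IsUnit u :=
    fun u => redV_eq_zero_iff hrep u
  have hℓF : ((ℓ : ℕ) : ↥(laurentBaseChange ↥(K0 A) (F1 M))) ≠ 0 :=
    Nat.cast_ne_zero.mpr hℓ.out.ne_zero
  have hsurj : Function.Surjective (red1 M hrep) :=
    redV_surjective hrep hπs (generatedByReductions₁ (W A) (piW A) M)
  have hval : ∀ f : ↥(laurentBaseChange ↥(K0 A) (F1 M)), f ≠ 0 →
      ∃ (n : ℤ) (u : (↥(O1 M hrep))ˣ),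
        f = ((ℓ : ℕ) : ↥(laurentBaseChange ↥(K0 A) (F1 M))) ^ n *
          (((u : ↥(O1 M hrep)) : ↥(laurentBaseChange ↥(K0 A) (F1 M)))) := by
    intro f hf
    obtain ⟨c, hc, u, hu⟩ := exists_const_mul_unit hrep f hf
    obtain ⟨n, w, hw⟩ := exists_zpow_mul_unit hA c hc
    refine ⟨n, Units.map (GaussBase.baseHom hbase).toMonoidHom w * u, ?_⟩
    rw [hu, hw, map_mul, map_zpow₀, map_natCast, mul_assoc]
    rfl
  have huniq : ∀ V : ValuationSubring ↥(laurentBaseChange ↥(K0 A) (F1 M)),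
      GaussBase.IsVert (W A) ℓ (DegBC.jL1 M ↥(K0 A)) V → V = O1 M hrep := by
    intro V hV
    exact hU ℓ hℓM A hA V (O1 M hrep) hV
      (GaussBase.isVert_self (piW_eq_zero_iff) (not_isUnit_natCast hA) hbase hxO hredc htr hker hℓF)
  have hsep : Algebra.IsSeparable ↥(↥(K0 A))⟮DegBC.jL1 M ↥(K0 A)⟯
      ↥(laurentBaseChange ↥(K0 A) (F1 M)) := inferInstance
  have key := GaussBase.finrank_res_eq (piW_eq_zero_iff) (not_isUnit_natCast hA) hbase hxO hredc
    htr hker hπs hsurj hℓF hval huniq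
  rw [red1_jL1] at key
  exact key

end Local

/-! ### `IgusaDeg M` -/

/-- **[B-igusa], degree**: `IgusaDeg M` from the uniqueness seam and the finiteness of `K0 A ⊗ F1 M`
over `K0 A (j)`. -/
theorem igusaDeg (hU : Seams.Unique1 M)
    (hfin : ∀ A : ValuationSubring Kb, FiniteDimensional ↥(↥(K0 A))⟮DegBC.jL1 M ↥(K0 A)⟯
      ↥(laurentBaseChange ↥(K0 A) (F1 M))) :
    IgusaDeg M := by
  intro ℓ hℓ hℓM A hA
  have : Fact ℓ.Prime := ⟨hℓ⟩
  obtain ⟨h1, h2⟩ := finrank_res M hA hℓM hU (hfin A)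
  refine ⟨h1, h2.trans ?_⟩
  have h3 := (DegBC.finrank_jL1 M ↥(K0 A) Kb (hfin A)).2
  rw [DegBC.jL1_Kb] at h3
  exact h3.symm

end Fermat.Agent.S48.B.Igusa.Final
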