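/-
PROJECT D (S48), part B, block B2 = [B-igusa] (leader helper25), route (ii) of the finiteness seam
(helper4): `L ⊗ F1 M` IS FINITE OVER `L(j)` FOR EVERY FIELD `L` OF CHARACTERISTIC ZERO, OF THE
DEGREE OF `ℚ̄(X₁(M)) / ℚ̄(j)`; the only input is block B1's `Deg1 M`.

* `finiteDimensional_of_constExt` (generic descent; `K ⊆ K'`, `F ⊆ K((q))`, `y ∈ F` transcendental
  over `K`): if `K' · F` is finite over `K'(y)` then `F` is finite over `K(y)` (main's
  `ConstExt.aeval_bcHom_eq_zero` needs no finiteness: a `K(y)`-independent family stays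
  `K'(y)`-independent);
* `finrank_jL1_down` : the same for `L ⊗ F1 M`, with the equality of the degrees;
* `finrank_jL1_of_deg1`, **`finite1_of_deg1`** : for an arbitrary `L`, go up from `ℚ̄` to an
  algebraic closure of `L` (`DegBC.finrank_jL1`) and down to `L`.
-/
import Mathlib
import Fermat.Agent.S48.B.Igusa.DegBC

set_option autoImplicit false

noncomputable section

namespace Fermat.Agent.S48.B.Igusa.FiniteDesc

open HahnSeries ModularCurve IntermediateField
open Fermat.Agent.S30.Descent.ConstExt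
open Fermat.Agent.S48.B.Defs.Model
open Fermat.Agent.S48.B.Igusa.DegBC

local notation "Kb" => AlgebraicClosure ℚ

/-! ### the generic descent -/

section Generic

variable {K K' : Type*} [Field K] [Field K'] [Algebra K K']
variable (F : IntermediateField K (LaurentSeries K))

/-- a `K(y)`-independent finite family of `F` stays independent over `K'(y)` -/
theorem linearIndependent_bcHom_adjoin {ι : Type*} [Fintype ι] {y : F} (hy : Transcendental K y)
    (z : ι → F) (hz : LinearIndependent ↥K⟮y⟯ z) :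
    LinearIndependent ↥K'⟮bcHom K' F y⟯ (fun i => bcHom K' F (z i)) :=
  Fermat.Agent.S37.Deuring.GaussLemmas.linearIndependent_field_of_aeval _ _
    (aeval_bcHom_eq_zero (K' := K') hy z hz)

/-- **descent of finiteness** along an extension of the field of constants -/
theorem finiteDimensional_of_constExt {y : F} (hy : Transcendental K y)
    (hfin : FiniteDimensional ↥K'⟮bcHom K' F y⟯ ↥(constExt K' F)) :
    FiniteDimensional ↥K⟮y⟯ ↥F := by
  have key : ∀ s : Finset ↥F, LinearIndependent ↥K⟮y⟯ (fun i : s => (i : ↥F)) →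
      s.card ≤ Module.finrank ↥K'⟮bcHom K' F y⟯ ↥(constExt K' F) := by
    intro s hs
    have hli := linearIndependent_bcHom_adjoin (K' := K') F hy (fun i : s => (i : ↥F)) hs
    have h1 := hli.fintype_card_le_finrank
    rwa [Fintype.card_coe] at h1
  have hrank : Module.rank ↥K⟮y⟯ ↥F ≤
      ((Module.finrank ↥K'⟮bcHom K' F y⟯ ↥(constExt K' F) : ℕ) : Cardinal) := rank_le key
  exact Module.rank_lt_aleph0_iff.mp (lt_of_le_of_lt hrank Cardinal.natCast_lt_aleph0)

end Generic

/-! ### `L ⊗ F1 M` -/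

variable (M : ℕ) [NeZero M]

/-- **going down** : finiteness (and the degree) of `L' ⊗ F1 M` over `L'(j)` descends to every
subfield `L` of constants. -/
theorem finrank_jL1_down (L L' : Type*) [Field L] [Field L'] [Algebra ℚ L] [Algebra ℚ L']
    [Algebra L L'] [IsScalarTower ℚ L L']
    (hfin' : FiniteDimensional ↥L'⟮jL1 M L'⟯ ↥(laurentBaseChange L' (F1 M))) :
    FiniteDimensional ↥L⟮jL1 M L⟯ ↥(laurentBaseChange L (F1 M)) ∧
      Module.finrank ↥L⟮jL1 M L⟯ ↥(laurentBaseChange L (F1 M)) =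
        Module.finrank ↥L'⟮jL1 M L'⟯ ↥(laurentBaseChange L' (F1 M)) := by
  have hy : Transcendental L (jL1 M L) := transcendental_jL1 M L
  have heq : constExt L' (laurentBaseChange L (F1 M)) = laurentBaseChange L' (F1 M) :=
    constExt_laurentBaseChange (K := L) (K' := L') (F1 M)
  have hc : ((bcHom L' (laurentBaseChange L (F1 M)) (jL1 M L) :
      constExt L' (laurentBaseChange L (F1 M))) : LaurentSeries L') = coeffEmb L' jq := by
    rw [coe_bcHom, coe_jL1, bc_coeffEmb]
  have hmem : ((jL1 M L' : ↥(laurentBaseChange L' (F1 M))) : LaurentSeries L') ∈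
      constExt L' (laurentBaseChange L (F1 M)) := by
    rw [heq]
    exact (jL1 M L').2
  obtain ⟨h3, -⟩ := finrank_of_eq heq.symm (jL1 M L') hmem
  have hj : (⟨_, hmem⟩ : ↥(constExt L' (laurentBaseChange L (F1 M)))) =
      bcHom L' (laurentBaseChange L (F1 M)) (jL1 M L) := Subtype.ext hc.symm
  rw [hj] at h3
  have hfin : FiniteDimensional ↥L⟮jL1 M L⟯ ↥(laurentBaseChange L (F1 M)) :=
    finiteDimensional_of_constExt (K' := L') (laurentBaseChange L (F1 M)) hy h3
  exact ⟨hfin, (finrank_jL1 M L L' hfin).2.symm⟩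

/-- an algebraic closure of `L` contains `ℚ̄` -/
theorem exists_algebra_Kb (L : Type*) [Field L] [Algebra ℚ L] :
    ∃ _ : Algebra Kb (AlgebraicClosure L), IsScalarTower ℚ Kb (AlgebraicClosure L) := by
  have : CharZero L := algebraRat.charZero L
  have : Algebra.IsAlgebraic ℚ Kb := AlgebraicClosure.isAlgebraic ℚ
  let φ : Kb →ₐ[ℚ] AlgebraicClosure L :=
    IsAlgClosed.lift (R := ℚ) (S := Kb) (M := AlgebraicClosure L)
  exact ⟨φ.toRingHom.toAlgebra,
    @IsScalarTower.of_algebraMap_eq ℚ Kb (AlgebraicClosure L) _ _ _ _ φ.toRingHom.toAlgebra _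
      (fun r => (φ.commutes r).symm)⟩

/-- **`[L ⊗ F1 M : L(j)] = [ℚ̄(X₁(M)) : ℚ̄(j)]`** for EVERY field `L` of characteristic zero -/
theorem finrank_jL1_of_finite (hfin : FiniteDimensional ↥Kb⟮jL1 M Kb⟯ ↥(laurentBaseChange Kb (F1 M)))
    (L : Type*) [Field L] [Algebra ℚ L] :
    FiniteDimensional ↥L⟮jL1 M L⟯ ↥(laurentBaseChange L (F1 M)) ∧
      Module.finrank ↥L⟮jL1 M L⟯ ↥(laurentBaseChange L (F1 M)) =
        Module.finrank ↥Kb⟮jL1 M Kb⟯ ↥(laurentBaseChange Kb (F1 M)) := by
  obtain ⟨_, _⟩ := exists_algebra_Kb L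
  obtain ⟨h1, h2⟩ := finrank_jL1 M Kb (AlgebraicClosure L) hfin
  obtain ⟨h3, h4⟩ := finrank_jL1_down M L (AlgebraicClosure L) h1
  exact ⟨h3, h4.trans h2⟩

theorem finrank_jL1_of_deg1 (hD : Fermat.Agent.S48.B.B1.Seams.Deg1 M)
    (L : Type*) [Field L] [Algebra ℚ L] :
    FiniteDimensional ↥L⟮jL1 M L⟯ ↥(laurentBaseChange L (F1 M)) ∧
      Module.finrank ↥L⟮jL1 M L⟯ ↥(laurentBaseChange L (F1 M)) =
        Module.finrank ↥Kb⟮Fermat.Agent.S48.B.B1.Seams.jgen1 M⟯ ↥(F1Bar M) := by
  have hfin : FiniteDimensional ↥Kb⟮jL1 M Kb⟯ ↥(laurentBaseChange Kb (F1 M)) := by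
    rw [jL1_Kb]
    exact hD.1.finite
  have h := finrank_jL1_of_finite M hfin L
  rw [jL1_Kb] at h
  exact h

/-- **the finiteness seam of block B2** (`Igusa/Seams.Finite1 M`, unfolded) from `Deg1 M` -/
theorem finite1_of_deg1 (hD : Fermat.Agent.S48.B.B1.Seams.Deg1 M) :
    ∀ (L : Type) [Field L] [Algebra ℚ L],
      FiniteDimensional ↥L⟮jL1 M L⟯ ↥(laurentBaseChange L (F1 M)) :=
  fun L _ _ => (finrank_jL1_of_deg1 M hD L).1

end Fermat.Agent.S48.B.Igusa.FiniteDesc
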