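/-
PROJECT D (S48), part B, block B2 ([B-igusa], ruling D-2), helper12: THE GROUP THEORY OF THE
DECOMPOSITION-GROUP ARGUMENT.

* `eq_top_of_mul_eq` : `U ≤ D`, `B` normalises `U`, `G = D · B`, the conjugates of `U` generate `G`
  ⟹ `D = ⊤`   (steps (iii) + (iv) of the proof of [B-igusa] as one abstract lemma);
* `normalClosure_map_T` : for a surjection `φ : SL(2, ℤ) → G` the conjugates of `φ T` generate `G`;
* in `SL(2, R)` : `E12 x`, `E21 y`, `upperUnipotent R`, `borelUpper R`, `borelUpper_normalizes`;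
  `closure_elementary_eq_top` (under stable range one), `normalClosure_upperUnipotent`;
* `stableRangeOne_zmod`, and for `R = ZMod M` : `normalClosure_upperUnipotent_zmod`,
  `map_intCast_surjective : SL(2, ℤ) → SL(2, ZMod M)` is onto.
`import Mathlib` only.
-/
import Mathlib

set_option autoImplicit false

namespace Fermat.Agent.S48.B.Igusa.GroupGen

open Matrix Matrix.SpecialLinearGroup
open scoped MatrixGroups

/-! ### (G1) the abstract step -/

/-- **(G1)** If `U ≤ D`, `B` normalises `U`, every element is `d * b`, and the conjugates of `U`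
generate the group, then `D` is everything. -/
theorem eq_top_of_mul_eq {G : Type*} [Group G] (D B U : Subgroup G) (hUD : U ≤ D)
    (hBU : ∀ b ∈ B, ∀ u ∈ U, b * u * b⁻¹ ∈ U)
    (hDB : ∀ g : G, ∃ d ∈ D, ∃ b ∈ B, g = d * b)
    (hU : Subgroup.normalClosure (U : Set G) = ⊤) : D = ⊤ := by
  rw [eq_top_iff, ← hU, Subgroup.normalClosure, Subgroup.closure_le]
  intro x hx
  rw [Group.mem_conjugatesOfSet_iff] at hx
  obtain ⟨u, hu, hconj⟩ := hx
  rw [isConj_iff] at hconj
  obtain ⟨g, rfl⟩ := hconj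
  obtain ⟨d, hd, b, hb, rfl⟩ := hDB g
  have h : d * b * u * (d * b)⁻¹ = d * (b * u * b⁻¹) * d⁻¹ := by group
  rw [SetLike.mem_coe, h]
  exact D.mul_mem (D.mul_mem hd (hUD (hBU b hb u hu))) (D.inv_mem hd)

/-! ### (G2) images of `SL(2, ℤ)` -/

theorem T_S_T_S_T : (ModularGroup.T * ModularGroup.S * ModularGroup.T * ModularGroup.S *
    ModularGroup.T : SL(2, ℤ)) = ModularGroup.S := by
  apply Subtype.ext
  simp only [Matrix.SpecialLinearGroup.coe_mul, ModularGroup.coe_S, ModularGroup.coe_T]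
  ext i j
  fin_cases i <;> fin_cases j <;> simp [Matrix.mul_apply, Fin.sum_univ_two]

theorem S_eq_T_conj : (ModularGroup.S : SL(2, ℤ)) =
    ModularGroup.T⁻¹ * (ModularGroup.S * ModularGroup.T⁻¹ * ModularGroup.S⁻¹) * ModularGroup.T⁻¹ := by
  have h := T_S_T_S_T
  calc (ModularGroup.S : SL(2, ℤ))
      = ModularGroup.T⁻¹ * ((ModularGroup.T * ModularGroup.S * ModularGroup.T * ModularGroup.S *
          ModularGroup.T) * ModularGroup.T⁻¹ * ModularGroup.S⁻¹) * ModularGroup.T⁻¹ := by group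
    _ = ModularGroup.T⁻¹ * (ModularGroup.S * ModularGroup.T⁻¹ * ModularGroup.S⁻¹) *
          ModularGroup.T⁻¹ := by rw [h]

/-- **(G2)** For a surjection `φ : SL(2, ℤ) → G`, the conjugates of the powers of `φ T` generate `G`. -/
theorem normalClosure_map_T {G : Type*} [Group G] (φ : SL(2, ℤ) →* G)
    (hφ : Function.Surjective φ) :
    Subgroup.normalClosure ((Subgroup.zpowers (φ ModularGroup.T) : Subgroup G) : Set G) = ⊤ := by
  set N := Subgroup.normalClosure ((Subgroup.zpowers (φ ModularGroup.T) : Subgroup G) : Set G)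
    with hN
  have hNn : N.Normal := Subgroup.normalClosure_normal
  have hT : φ ModularGroup.T ∈ N :=
    Subgroup.subset_normalClosure (Subgroup.mem_zpowers _)
  have hTi : (φ ModularGroup.T)⁻¹ ∈ N := N.inv_mem hT
  have hS : φ ModularGroup.S ∈ N := by
    have h := congrArg φ S_eq_T_conj
    simp only [map_mul, map_inv] at h
    rw [h]
    exact N.mul_mem (N.mul_mem hTi (hNn.conj_mem _ hTi _)) hTi
  rw [eq_top_iff]
  have h1 : (⊤ : Subgroup G) = Subgroup.map φ ⊤ := by
    rw [← MonoidHom.range_eq_map, MonoidHom.range_eq_top.2 hφ]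
  rw [h1, ← SpecialLinearGroup.SL2Z_generators, MonoidHom.map_closure, Subgroup.closure_le]
  rintro _ ⟨x, hx, rfl⟩
  rcases hx with rfl | rfl
  · exact hS
  · exact hT

/-! ### (G3) elementary matrices in `SL(2, R)` -/

section Elementary

variable {R : Type*} [CommRing R]

/-- the upper elementary matrix `(1 x; 0 1)` -/
def E12 (x : R) : SL(2, R) := ⟨!![1, x; 0, 1], by simp [Matrix.det_fin_two_of]⟩

/-- the lower elementary matrix `(1 0; y 1)` -/
def E21 (y : R) : SL(2, R) := ⟨!![1, 0; y, 1], by simp [Matrix.det_fin_two_of]⟩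

/-- the Weyl element `(0 -1; 1 0)` -/
def weyl : SL(2, R) := ⟨!![0, -1; 1, 0], by simp [Matrix.det_fin_two_of]⟩

@[simp] theorem coe_E12 (x : R) : (E12 x : Matrix (Fin 2) (Fin 2) R) = !![1, x; 0, 1] := rfl
@[simp] theorem coe_E21 (y : R) : (E21 y : Matrix (Fin 2) (Fin 2) R) = !![1, 0; y, 1] := rfl
@[simp] theorem coe_weyl : ((weyl : SL(2, R)) : Matrix (Fin 2) (Fin 2) R) = !![0, -1; 1, 0] := rfl

theorem sl2_ext {g h : SL(2, R)} (h00 : g 0 0 = h 0 0) (h01 : g 0 1 = h 0 1)
    (h10 : g 1 0 = h 1 0) (h11 : g 1 1 = h 1 1) : g = h := by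
  ext i j
  fin_cases i <;> fin_cases j
  exacts [h00, h01, h10, h11]

theorem sl2_det (g : SL(2, R)) : g 0 0 * g 1 1 - g 0 1 * g 1 0 = 1 := by
  have := g.det_coe
  rwa [Matrix.det_fin_two] at this

theorem mul_entries (g h : SL(2, R)) :
    (g * h) 0 0 = g 0 0 * h 0 0 + g 0 1 * h 1 0 ∧ (g * h) 0 1 = g 0 0 * h 0 1 + g 0 1 * h 1 1 ∧
    (g * h) 1 0 = g 1 0 * h 0 0 + g 1 1 * h 1 0 ∧ (g * h) 1 1 = g 1 0 * h 0 1 + g 1 1 * h 1 1 := by
  refine ⟨?_, ?_, ?_, ?_⟩ <;>
    simp [Matrix.SpecialLinearGroup.coe_mul, Matrix.mul_apply, Fin.sum_univ_two]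

theorem E12_add (x y : R) : E12 (x + y) = E12 x * E12 y := by
  obtain ⟨h00, h01, h10, h11⟩ := mul_entries (E12 x) (E12 y)
  apply sl2_ext
  · rw [h00]; simp
  · rw [h01]; simp [add_comm]
  · rw [h10]; simp
  · rw [h11]; simp

theorem E12_zero : E12 (0 : R) = 1 := by
  apply sl2_ext <;> simp

theorem E12_neg (x : R) : E12 (-x) = (E12 x)⁻¹ := by
  rw [eq_inv_iff_mul_eq_one, ← E12_add, neg_add_cancel, E12_zero]

theorem E21_eq_conj (y : R) : E21 y = weyl * E12 (-y) * weyl⁻¹ := by
  rw [eq_mul_inv_iff_mul_eq]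
  obtain ⟨a00, a01, a10, a11⟩ := mul_entries (E21 y) (weyl : SL(2, R))
  obtain ⟨b00, b01, b10, b11⟩ := mul_entries (weyl : SL(2, R)) (E12 (-y))
  apply sl2_ext
  · rw [a00, b00]; simp
  · rw [a01, b01]; simp
  · rw [a10, b10]; simp
  · rw [a11, b11]; simp

variable (R)

/-- the group of upper unipotent matrices `(1 x; 0 1)` -/
def upperUnipotent : Subgroup SL(2, R) where
  carrier := {g | ∃ x : R, g = E12 x}
  mul_mem' := by
    rintro _ _ ⟨x, rfl⟩ ⟨y, rfl⟩
    exact ⟨x + y, (E12_add x y).symm⟩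
  one_mem' := ⟨0, E12_zero.symm⟩
  inv_mem' := by
    rintro _ ⟨x, rfl⟩
    exact ⟨-x, (E12_neg x).symm⟩

/-- the Borel subgroup: lower left entry `0` -/
def borelUpper : Subgroup SL(2, R) where
  carrier := {g | g 1 0 = 0}
  mul_mem' := by
    intro g h hg hh
    simp only [Set.mem_ofPred_eq] at hg hh ⊢
    rw [(mul_entries g h).2.2.1, hg, hh]; ring
  one_mem' := by simp
  inv_mem' := by
    intro g hg
    simp only [Set.mem_ofPred_eq] at hg ⊢
    rw [Matrix.SpecialLinearGroup.SL2_inv_expl]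
    simp [hg]

variable {R}

theorem mem_upperUnipotent_iff {g : SL(2, R)} : g ∈ upperUnipotent R ↔ ∃ x : R, g = E12 x :=
  Iff.rfl

theorem mem_borelUpper_iff {g : SL(2, R)} : g ∈ borelUpper R ↔ g 1 0 = 0 := Iff.rfl

theorem E12_mem_upperUnipotent (x : R) : E12 x ∈ upperUnipotent R := ⟨x, rfl⟩

theorem upperUnipotent_le_borelUpper : upperUnipotent R ≤ borelUpper R := by
  rintro _ ⟨x, rfl⟩
  simp [mem_borelUpper_iff]

/-- the Borel subgroup normalises the upper unipotent subgroup -/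
theorem borelUpper_normalizes : ∀ b ∈ borelUpper R, ∀ u ∈ upperUnipotent R, b * u * b⁻¹ ∈ upperUnipotent R := by
  rintro b hb _ ⟨x, rfl⟩
  rw [mem_borelUpper_iff] at hb
  refine ⟨b 0 0 * b 0 0 * x, ?_⟩
  rw [mul_inv_eq_iff_eq_mul]
  obtain ⟨a00, a01, a10, a11⟩ := mul_entries b (E12 x)
  obtain ⟨c00, c01, c10, c11⟩ := mul_entries (E12 (b 0 0 * b 0 0 * x)) b
  have hdet := sl2_det b
  rw [hb, mul_zero, sub_zero] at hdet
  apply sl2_ext
  · rw [a00, c00, hb]; simp
  · rw [a01, c01]; simp only [coe_E12, Matrix.of_apply, Matrix.cons_val', Matrix.cons_val_zero,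
      Matrix.cons_val_one, Matrix.cons_val_fin_one]
    linear_combination (-(b 0 0 * x)) * hdet
  · rw [a10, c10, hb]; simp
  · rw [a11, c11, hb]; simp

/-! ### Generation by elementary matrices under stable range one -/

/-- stable range one: a unimodular pair `(a, c)` can be shifted to a unit `a + t c` -/
def StableRangeOne (R : Type*) [CommRing R] : Prop :=
  ∀ a c : R, (∃ x y : R, x * a + y * c = 1) → ∃ t : R, IsUnit (a + t * c)

/-- the diagonal matrix `diag(u, v)`, `u v = 1` -/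
def diag (u v : R) (h : u * v = 1) : SL(2, R) :=
  ⟨!![u, 0; 0, v], by simp [Matrix.det_fin_two_of, h]⟩

@[simp] theorem coe_diag (u v : R) (h : u * v = 1) :
    (diag u v h : Matrix (Fin 2) (Fin 2) R) = !![u, 0; 0, v] := rfl

theorem diag_eq (u v : R) (h : u * v = 1) :
    diag u v h = E12 u * E21 (-v) * E12 u * (E12 (-1) * E21 1 * E12 (-1)) := by
  apply Subtype.ext
  simp only [Matrix.SpecialLinearGroup.coe_mul, coe_E12, coe_E21, coe_diag, Matrix.mul_fin_two]
  have h' : v * u = 1 := by rw [mul_comm]; exact h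
  ext i j
  fin_cases i <;> fin_cases j <;> simp <;>
    first
      | linear_combination (-u) * h
      | linear_combination (-1 : R) * h
      | linear_combination h'

/-- the subgroup generated by the elementary matrices -/
def elemSubgroup (R : Type*) [CommRing R] : Subgroup SL(2, R) :=
  Subgroup.closure ({g : SL(2, R) | ∃ x, g = E12 x} ∪ {g | ∃ y, g = E21 y})

theorem E12_mem_elem (x : R) : E12 x ∈ elemSubgroup R :=
  Subgroup.subset_closure (Or.inl ⟨x, rfl⟩)

theorem E21_mem_elem (y : R) : E21 y ∈ elemSubgroup R :=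
  Subgroup.subset_closure (Or.inr ⟨y, rfl⟩)

theorem diag_mem_elem (u v : R) (h : u * v = 1) : diag u v h ∈ elemSubgroup R := by
  rw [diag_eq]
  exact (elemSubgroup R).mul_mem
    ((elemSubgroup R).mul_mem ((elemSubgroup R).mul_mem (E12_mem_elem u) (E21_mem_elem (-v)))
      (E12_mem_elem u))
    ((elemSubgroup R).mul_mem ((elemSubgroup R).mul_mem (E12_mem_elem (-1)) (E21_mem_elem 1))
      (E12_mem_elem (-1)))

/-- Step B: upper triangular matrices are products of elementary matrices -/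
theorem mem_elem_of_lower_zero {g : SL(2, R)} (hg : g 1 0 = 0) : g ∈ elemSubgroup R := by
  have hdet := sl2_det g
  rw [hg, mul_zero, sub_zero] at hdet
  have hEq : g = diag (g 0 0) (g 1 1) hdet * E12 (g 1 1 * g 0 1) := by
    obtain ⟨a00, a01, a10, a11⟩ := mul_entries (diag (g 0 0) (g 1 1) hdet) (E12 (g 1 1 * g 0 1))
    apply sl2_ext
    · rw [a00]; simp
    · rw [a01]; simp only [coe_diag, coe_E12, Matrix.of_apply, Matrix.cons_val', Matrix.cons_val_zero,
        Matrix.cons_val_one, Matrix.cons_val_fin_one]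
      linear_combination (-(g 0 1)) * hdet
    · rw [a10]; simp [hg]
    · rw [a11]; simp
  rw [hEq]
  exact (elemSubgroup R).mul_mem (diag_mem_elem _ _ _) (E12_mem_elem _)

/-- Step C: a matrix with invertible upper left entry is a product of elementary matrices -/
theorem mem_elem_of_isUnit {g : SL(2, R)} (hg : IsUnit (g 0 0)) : g ∈ elemSubgroup R := by
  obtain ⟨u, hu⟩ := hg
  set v : R := ((u⁻¹ : Rˣ) : R) with hv
  have huv : g 0 0 * v = 1 := by rw [← hu, hv]; exact u.mul_inv
  have h1 : E21 (-(g 1 0 * v)) * g ∈ elemSubgroup R := by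
    apply mem_elem_of_lower_zero
    rw [(mul_entries _ g).2.2.1]
    simp only [coe_E21, Matrix.of_apply, Matrix.cons_val', Matrix.cons_val_zero,
      Matrix.cons_val_one, Matrix.cons_val_fin_one]
    linear_combination (-(g 1 0)) * huv
  have h2 := (elemSubgroup R).mul_mem ((elemSubgroup R).inv_mem (E21_mem_elem (-(g 1 0 * v)))) h1
  rwa [inv_mul_cancel_left] at h2

/-- **Generation**: under stable range one, `SL(2, R)` is generated by the elementary matrices. -/
theorem elemSubgroup_eq_top (hSR : StableRangeOne R) : elemSubgroup R = ⊤ := by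
  rw [eq_top_iff]
  intro g _
  have hdet := sl2_det g
  obtain ⟨t, ht⟩ := hSR (g 0 0) (g 1 0) ⟨g 1 1, -(g 0 1), by linear_combination hdet⟩
  have h1 : E12 t * g ∈ elemSubgroup R := by
    apply mem_elem_of_isUnit
    rw [(mul_entries _ g).1]
    simpa using ht
  have h2 := (elemSubgroup R).mul_mem ((elemSubgroup R).inv_mem (E12_mem_elem t)) h1
  rwa [inv_mul_cancel_left] at h2

/-- **(G3)** under stable range one the conjugates of the upper unipotent subgroup generate
`SL(2, R)`. -/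
theorem normalClosure_upperUnipotent (hSR : StableRangeOne R) :
    Subgroup.normalClosure ((upperUnipotent R : Subgroup SL(2, R)) : Set SL(2, R)) = ⊤ := by
  set N := Subgroup.normalClosure ((upperUnipotent R : Subgroup SL(2, R)) : Set SL(2, R)) with hN
  have hNn : N.Normal := Subgroup.normalClosure_normal
  have h12 : ∀ x : R, E12 x ∈ N := fun x =>
    Subgroup.subset_normalClosure (E12_mem_upperUnipotent x)
  rw [eq_top_iff, ← elemSubgroup_eq_top hSR, elemSubgroup, Subgroup.closure_le]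
  rintro g (⟨x, rfl⟩ | ⟨y, rfl⟩)
  · exact h12 x
  · rw [E21_eq_conj]
    exact hNn.conj_mem _ (h12 _) _

end Elementary

/-! ### The ring `ZMod M` -/

/-- `ZMod M` has stable range one: for `(a, c)` unimodular, `a + t c` is a unit for `t` the product
of the primes of `M` not dividing `a`. -/
theorem stableRangeOne_zmod (M : ℕ) [NeZero M] : StableRangeOne (ZMod M) := by
  intro a c ⟨x, y, hxy⟩
  classical
  set P : Finset ℕ := M.primeFactors.filter (fun p => ¬ p ∣ a.val) with hP
  set t : ℕ := ∏ p ∈ P, p with ht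
  refine ⟨(t : ZMod M), ?_⟩
  have hcast : a + (t : ZMod M) * c = ((a.val + t * c.val : ℕ) : ZMod M) := by
    push_cast
    rw [ZMod.natCast_zmod_val, ZMod.natCast_zmod_val]
  rw [hcast, ZMod.isUnit_iff_coprime]
  -- no prime of `M` divides both `a` and `c`
  have hac : ∀ p : ℕ, p.Prime → p ∣ M → p ∣ a.val → ¬ p ∣ c.val := by
    intro p hp hpM hpa hpc
    have h1 : ((x.val * a.val + y.val * c.val : ℕ) : ZMod M) = ((1 : ℕ) : ZMod M) := by
      push_cast
      rw [ZMod.natCast_zmod_val, ZMod.natCast_zmod_val, ZMod.natCast_zmod_val,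
        ZMod.natCast_zmod_val]
      exact hxy
    have h2 : x.val * a.val + y.val * c.val ≡ 1 [MOD M] :=
      (ZMod.natCast_eq_natCast_iff _ _ _).1 h1
    have h3 : x.val * a.val + y.val * c.val ≡ 1 [MOD p] := h2.of_dvd hpM
    have h4 : x.val * a.val + y.val * c.val ≡ 0 [MOD p] :=
      (Nat.modEq_zero_iff_dvd).2 (dvd_add (dvd_mul_of_dvd_right hpa _) (dvd_mul_of_dvd_right hpc _))
    have h5 : 1 ≡ 0 [MOD p] := h3.symm.trans h4
    have h6 : p ∣ 1 := (Nat.modEq_zero_iff_dvd).1 h5
    exact hp.one_lt.ne' (Nat.dvd_one.1 h6)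
  refine Nat.coprime_of_dvd ?_
  intro p hp hdiv hpM
  by_cases hpa : p ∣ a.val
  · -- `p ∣ a`, so `p ∤ c` and `p ∤ t`
    have hpc := hac p hp hpM hpa
    have hpt : ¬ p ∣ t := by
      intro hdt
      rw [ht, Prime.dvd_finsetProd_iff hp.prime] at hdt
      obtain ⟨q, hq, hpq⟩ := hdt
      rw [hP, Finset.mem_filter] at hq
      have hqprime : q.Prime := Nat.prime_of_mem_primeFactors hq.1
      have : p = q := (Nat.prime_dvd_prime_iff_eq hp hqprime).1 hpq
      exact hq.2 (this ▸ hpa)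
    have h1 : p ∣ t * c.val := (Nat.dvd_add_right hpa).1 hdiv
    rcases hp.dvd_mul.1 h1 with h | h
    · exact hpt h
    · exact hpc h
  · -- `p ∤ a`, so `p ∣ t`
    have hmem : p ∈ P := by
      rw [hP, Finset.mem_filter]
      exact ⟨Nat.mem_primeFactors.2 ⟨hp, hpM, NeZero.ne M⟩, hpa⟩
    have hpt : p ∣ t := Finset.dvd_prod_of_mem _ hmem
    exact hpa ((Nat.dvd_add_left (dvd_mul_of_dvd_left hpt _)).1 hdiv)

/-- **(G3) for `ZMod M`**: the conjugates of the upper unipotent matrices generate `SL(2, ZMod M)`. -/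
theorem normalClosure_upperUnipotent_zmod (M : ℕ) [NeZero M] :
    Subgroup.normalClosure ((upperUnipotent (ZMod M) : Subgroup SL(2, ZMod M)) :
      Set SL(2, ZMod M)) = ⊤ :=
  normalClosure_upperUnipotent (stableRangeOne_zmod M)

theorem map_E12 {R S : Type*} [CommRing R] [CommRing S] (f : R →+* S) (x : R) :
    Matrix.SpecialLinearGroup.map f (E12 x) = E12 (f x) := by
  apply sl2_ext <;> simp [Matrix.SpecialLinearGroup.map_apply_coe]

theorem map_E21 {R S : Type*} [CommRing R] [CommRing S] (f : R →+* S) (y : R) :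
    Matrix.SpecialLinearGroup.map f (E21 y) = E21 (f y) := by
  apply sl2_ext <;> simp [Matrix.SpecialLinearGroup.map_apply_coe]

/-- reduction mod `M` is onto: `SL(2, ℤ) → SL(2, ZMod M)` -/
theorem map_intCast_surjective (M : ℕ) [NeZero M] :
    Function.Surjective
      (Matrix.SpecialLinearGroup.map (Int.castRingHom (ZMod M)) : SL(2, ℤ) → SL(2, ZMod M)) := by
  rw [← MonoidHom.range_eq_top, eq_top_iff, ← elemSubgroup_eq_top (stableRangeOne_zmod M),
    elemSubgroup, Subgroup.closure_le]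
  rintro g (⟨x, rfl⟩ | ⟨y, rfl⟩)
  · obtain ⟨n, rfl⟩ := ZMod.intCast_surjective x
    exact ⟨E12 n, by rw [map_E12]; rfl⟩
  · obtain ⟨n, rfl⟩ := ZMod.intCast_surjective y
    exact ⟨E21 n, by rw [map_E21]; rfl⟩


/-! ### The lower triangular twins (for the other convention of the action) -/

section Lower

variable {R : Type*} [CommRing R]

theorem E21_add (x y : R) : E21 (x + y) = E21 x * E21 y := by
  obtain ⟨h00, h01, h10, h11⟩ := mul_entries (E21 x) (E21 y)
  apply sl2_ext
  · rw [h00]; simp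
  · rw [h01]; simp
  · rw [h10]; simp
  · rw [h11]; simp

theorem E21_zero : E21 (0 : R) = 1 := by
  apply sl2_ext <;> simp

theorem E21_neg (x : R) : E21 (-x) = (E21 x)⁻¹ := by
  rw [eq_inv_iff_mul_eq_one, ← E21_add, neg_add_cancel, E21_zero]

variable (R)

/-- the group of lower unipotent matrices `(1 0; y 1)` -/
def lowerUnipotent : Subgroup SL(2, R) where
  carrier := {g | ∃ y : R, g = E21 y}
  mul_mem' := by
    rintro _ _ ⟨x, rfl⟩ ⟨y, rfl⟩
    exact ⟨x + y, (E21_add x y).symm⟩
  one_mem' := ⟨0, E21_zero.symm⟩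
  inv_mem' := by
    rintro _ ⟨x, rfl⟩
    exact ⟨-x, (E21_neg x).symm⟩

/-- the lower Borel subgroup: upper right entry `0` -/
def borelLower : Subgroup SL(2, R) where
  carrier := {g | g 0 1 = 0}
  mul_mem' := by
    intro g h hg hh
    simp only [Set.mem_ofPred_eq] at hg hh ⊢
    rw [(mul_entries g h).2.1, hg, hh]; ring
  one_mem' := by simp
  inv_mem' := by
    intro g hg
    simp only [Set.mem_ofPred_eq] at hg ⊢
    rw [Matrix.SpecialLinearGroup.SL2_inv_expl]
    simp [hg]

variable {R}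

theorem E21_mem_lowerUnipotent (y : R) : E21 y ∈ lowerUnipotent R := ⟨y, rfl⟩

theorem mem_borelLower_iff {g : SL(2, R)} : g ∈ borelLower R ↔ g 0 1 = 0 := Iff.rfl

/-- the lower Borel subgroup normalises the lower unipotent subgroup -/
theorem borelLower_normalizes :
    ∀ b ∈ borelLower R, ∀ u ∈ lowerUnipotent R, b * u * b⁻¹ ∈ lowerUnipotent R := by
  rintro b hb _ ⟨x, rfl⟩
  rw [mem_borelLower_iff] at hb
  refine ⟨b 1 1 * b 1 1 * x, ?_⟩
  rw [mul_inv_eq_iff_eq_mul]
  obtain ⟨a00, a01, a10, a11⟩ := mul_entries b (E21 x)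
  obtain ⟨c00, c01, c10, c11⟩ := mul_entries (E21 (b 1 1 * b 1 1 * x)) b
  have hdet := sl2_det b
  rw [hb, zero_mul, sub_zero] at hdet
  apply sl2_ext
  · rw [a00, c00, hb]; simp
  · rw [a01, c01, hb]; simp
  · rw [a10, c10]; simp only [coe_E21, Matrix.of_apply, Matrix.cons_val', Matrix.cons_val_zero,
      Matrix.cons_val_one, Matrix.cons_val_fin_one]
    linear_combination (-(b 1 1 * x)) * hdet
  · rw [a11, c11, hb]; simp

theorem E12_eq_conj (x : R) : E12 x = weyl⁻¹ * E21 (-x) * weyl := by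
  rw [E21_eq_conj, neg_neg]; group

/-- under stable range one the conjugates of the lower unipotent subgroup generate `SL(2, R)` -/
theorem normalClosure_lowerUnipotent (hSR : StableRangeOne R) :
    Subgroup.normalClosure ((lowerUnipotent R : Subgroup SL(2, R)) : Set SL(2, R)) = ⊤ := by
  set N := Subgroup.normalClosure ((lowerUnipotent R : Subgroup SL(2, R)) : Set SL(2, R)) with hN
  have hNn : N.Normal := Subgroup.normalClosure_normal
  have h21 : ∀ y : R, E21 y ∈ N := fun y =>
    Subgroup.subset_normalClosure (E21_mem_lowerUnipotent y)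
  rw [eq_top_iff, ← elemSubgroup_eq_top hSR, elemSubgroup, Subgroup.closure_le]
  rintro g (⟨x, rfl⟩ | ⟨y, rfl⟩)
  · rw [E12_eq_conj]
    have := hNn.conj_mem _ (h21 (-x)) (weyl⁻¹)
    rwa [inv_inv] at this
  · exact h21 y

end Lower

/-! ### The statements in the shape the decomposition-group argument consumes -/

/-- **[B-igusa] (iii)+(iv), upper convention**: a subgroup `D` of `SL(2, ZMod M)` containing the
upper unipotent matrices with `SL(2, ZMod M) = D · B` for a subgroup `B` of the upper Borel is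
everything. -/
theorem eq_top_of_upper (M : ℕ) [NeZero M] (D B : Subgroup SL(2, ZMod M))
    (hU : upperUnipotent (ZMod M) ≤ D) (hB : B ≤ borelUpper (ZMod M))
    (hDB : ∀ g : SL(2, ZMod M), ∃ d ∈ D, ∃ b ∈ B, g = d * b) : D = ⊤ :=
  eq_top_of_mul_eq D B (upperUnipotent (ZMod M)) hU
    (fun b hb u hu => borelUpper_normalizes b (hB hb) u hu) hDB (normalClosure_upperUnipotent_zmod M)

/-- **[B-igusa] (iii)+(iv), lower convention**. -/
theorem eq_top_of_lower (M : ℕ) [NeZero M] (D B : Subgroup SL(2, ZMod M))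
    (hU : lowerUnipotent (ZMod M) ≤ D) (hB : B ≤ borelLower (ZMod M))
    (hDB : ∀ g : SL(2, ZMod M), ∃ d ∈ D, ∃ b ∈ B, g = d * b) : D = ⊤ :=
  eq_top_of_mul_eq D B (lowerUnipotent (ZMod M)) hU
    (fun b hb u hu => borelLower_normalizes b (hB hb) u hu) hDB
    (normalClosure_lowerUnipotent (stableRangeOne_zmod M))

/-- **The same through any surjection** `π : SL(2, ZMod M) → G` (e.g. onto `SL(2, ZMod M)/±1`, or
onto the Galois group of `FF_M` over `ℚ̄(j)`): if `D ≤ G` contains `π U`, and `G = D · π B`, then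
`D = ⊤`. -/
theorem eq_top_of_upper_map (M : ℕ) [NeZero M] {G : Type*} [Group G] (π : SL(2, ZMod M) →* G)
    (hπ : Function.Surjective π) (D : Subgroup G) (B : Subgroup SL(2, ZMod M))
    (hU : ∀ x : ZMod M, π (E12 x) ∈ D) (hB : B ≤ borelUpper (ZMod M))
    (hDB : ∀ g : G, ∃ d ∈ D, ∃ b ∈ B, g = d * π b) : D = ⊤ := by
  have h := eq_top_of_upper M (D.comap π) B
    (by rintro _ ⟨x, rfl⟩; exact hU x) hB
    (by
      intro g
      obtain ⟨d, hd, b, hb, hg⟩ := hDB (π g)
      obtain ⟨d', rfl⟩ := hπ d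
      refine ⟨g * b⁻¹, ?_, b, hb, by group⟩
      rw [Subgroup.mem_comap, map_mul, map_inv, hg, mul_inv_cancel_right]
      exact hd)
  rw [eq_top_iff]
  intro g _
  obtain ⟨g', rfl⟩ := hπ g
  have : g' ∈ D.comap π := by rw [h]; trivial
  exact this

end Fermat.Agent.S48.B.Igusa.GroupGen
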