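/-
PROJECT D (S48, Deligne–Serre), PART B, block B2 (Igusa for `X₁(M)`), brick (D) (helper25):
THE GAUSS VALUATION RING OF A FIELD OF LAURENT SERIES OVER A DISCRETELY VALUED FIELD.

Generic twin of main's `S28/GaussVal` (which is written for `ℚ`, `ℤ_(ℓ)`): `K` a field with a
valuation `v` and a uniformiser `ϖ` (`v ϖ < 1`, every `x` with `v x < 1` has `v x ≤ v ϖ`, every
nonzero `x` has `v ϖ ^ n ≤ v x` for some `n`).  `Ol v` is the subring of `K((t))` of series with
`v`-integral coefficients, a series is *primitive* if moreover one coefficient is a unit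
(Gauss' lemma: products of primitive series are primitive).  For an intermediate field `F` of
`K((t)) / K` every element of which is a quotient of integral elements of `F` (`IsRatio`),

  `Ow v F = { a / b : a, b ∈ F ∩ Ol, b primitive }`

is a valuation subring of `F`; it contains the integral elements of `F`, `ϖ` is not a unit of it,
every element of `F` outside it has an inverse divisible by `ϖ`, and it is stable under every
ring endomorphism of `K((t))` which preserves `F`, integrality and primitivity (`t ↦ u t` for a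
unit `u`, coefficientwise isometries).  No residue field is needed.  Mathlib only.
-/
import Mathlib

set_option autoImplicit false

noncomputable section

namespace Fermat.Agent.S48.B.Igusa.GaussDVR

open HahnSeries

variable {K : Type*} [Field K] {Γ₀ : Type*} [LinearOrderedCommGroupWithZero Γ₀]
  (v : Valuation K Γ₀)

/-! ### Integral and primitive series -/

/-- The subring of `K((t))` of series with `v`-integral coefficients. -/
def Ol : Subring (LaurentSeries K) where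
  carrier := {f | ∀ k, v (f.coeff k) ≤ 1}
  mul_mem' := by
    intro f g hf hg k
    rw [HahnSeries.coeff_mul]
    refine v.map_sum_le fun ij _ => ?_
    rw [map_mul]
    exact mul_le_one' (hf ij.1) (hg ij.2)
  one_mem' := by
    intro k
    rw [HahnSeries.coeff_one]
    split_ifs
    · rw [map_one]
    · rw [map_zero]
      exact zero_le_one
  add_mem' := by
    intro f g hf hg k
    rw [HahnSeries.coeff_add]
    exact (v.map_add _ _).trans (max_le (hf k) (hg k))
  zero_mem' := by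
    intro k
    rw [HahnSeries.coeff_zero, map_zero]
    exact zero_le_one
  neg_mem' := by
    intro f hf k
    rw [HahnSeries.coeff_neg, Valuation.map_neg]
    exact hf k

theorem mem_Ol_iff {f : LaurentSeries K} : f ∈ Ol v ↔ ∀ k, v (f.coeff k) ≤ 1 := Iff.rfl

/-- A series is primitive if it is integral and one of its coefficients is a unit. -/
def IsPrim (f : LaurentSeries K) : Prop := f ∈ Ol v ∧ ∃ k, v (f.coeff k) = 1

variable {v}

theorem IsPrim.ne_zero {f : LaurentSeries K} (hf : IsPrim v f) : f ≠ 0 := by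
  rintro rfl
  obtain ⟨k, hk⟩ := hf.2
  rw [HahnSeries.coeff_zero, map_zero] at hk
  exact zero_ne_one hk

theorem isPrim_one : IsPrim v (1 : LaurentSeries K) :=
  ⟨(Ol v).one_mem, 0, by rw [HahnSeries.coeff_one, if_pos rfl, map_one]⟩

/-- **Gauss' lemma.** -/
theorem IsPrim.mul {a b : LaurentSeries K} (ha : IsPrim v a) (hb : IsPrim v b) :
    IsPrim v (a * b) := by
  refine ⟨(Ol v).mul_mem ha.1 hb.1, ?_⟩
  -- least unit indices
  set Sa : Set ℤ := {k | v (a.coeff k) = 1} with hSa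
  set Sb : Set ℤ := {k | v (b.coeff k) = 1} with hSb
  have hSa_sub : Sa ⊆ a.support := by
    intro k hk h0
    rw [hSa, Set.mem_ofPred_eq, h0, map_zero] at hk
    exact zero_ne_one hk
  have hSb_sub : Sb ⊆ b.support := by
    intro k hk h0
    rw [hSb, Set.mem_ofPred_eq, h0, map_zero] at hk
    exact zero_ne_one hk
  have hwa : Sa.IsWF := a.isWF_support.mono hSa_sub
  have hwb : Sb.IsWF := b.isWF_support.mono hSb_sub
  have hna : Sa.Nonempty := ha.2
  have hnb : Sb.Nonempty := hb.2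
  set i₀ := hwa.min hna with hi₀
  set j₀ := hwb.min hnb with hj₀
  have hi₀m : v (a.coeff i₀) = 1 := hwa.min_mem hna
  have hj₀m : v (b.coeff j₀) = 1 := hwb.min_mem hnb
  have hi₀min : ∀ i, i < i₀ → v (a.coeff i) < 1 := by
    intro i hi
    refine lt_of_le_of_ne (ha.1 i) fun h => ?_
    exact absurd hi (not_lt.mpr (hwa.min_le hna h))
  have hj₀min : ∀ j, j < j₀ → v (b.coeff j) < 1 := by
    intro j hj
    refine lt_of_le_of_ne (hb.1 j) fun h => ?_
    exact absurd hj (not_lt.mpr (hwb.min_le hnb h))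
  refine ⟨i₀ + j₀, ?_⟩
  rw [HahnSeries.coeff_mul]
  have hmem : (i₀, j₀) ∈ Finset.antidiagonal a.isPWO_support b.isPWO_support (i₀ + j₀) := by
    rw [Finset.mem_antidiagonal]
    exact ⟨hSa_sub hi₀m, hSb_sub hj₀m, rfl⟩
  rw [← Finset.add_sum_erase _ _ hmem]
  have hrest : v (∑ ij ∈ (Finset.antidiagonal a.isPWO_support b.isPWO_support (i₀ + j₀)).erase
      (i₀, j₀), a.coeff ij.1 * b.coeff ij.2) < 1 := by
    refine v.map_sum_lt one_ne_zero fun ij hij => ?_
    obtain ⟨hne, hij'⟩ := Finset.mem_erase.mp hij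
    obtain ⟨_, _, hsum⟩ := Finset.mem_antidiagonal.mp hij'
    rw [map_mul]
    rcases lt_trichotomy ij.1 i₀ with h | h | h
    · calc v (a.coeff ij.1) * v (b.coeff ij.2) ≤ v (a.coeff ij.1) * 1 :=
            mul_le_mul_right (hb.1 ij.2) _
        _ = v (a.coeff ij.1) := mul_one _
        _ < 1 := hi₀min _ h
    · exfalso
      apply hne
      have : ij.2 = j₀ := by omega
      exact Prod.ext h this
    · have hj : ij.2 < j₀ := by omega
      calc v (a.coeff ij.1) * v (b.coeff ij.2) ≤ 1 * v (b.coeff ij.2) :=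
            mul_le_mul_left (ha.1 ij.1) _
        _ = v (b.coeff ij.2) := one_mul _
        _ < 1 := hj₀min _ hj
  have hmain : v (a.coeff i₀ * b.coeff j₀) = 1 := by
    rw [map_mul, hi₀m, hj₀m, mul_one]
  rw [Valuation.map_add_eq_of_lt_left _ (by rw [hmain]; exact hrest), hmain]

theorem IsPrim.pow {a : LaurentSeries K} (ha : IsPrim v a) (n : ℕ) : IsPrim v (a ^ n) := by
  induction n with
  | zero => rw [pow_zero]; exact isPrim_one
  | succ n ih => rw [pow_succ]; exact ih.mul ha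

/-! ### Constants -/

theorem coeff_algebraMap_mul (c : K) (f : LaurentSeries K) (k : ℤ) :
    (algebraMap K (LaurentSeries K) c * f).coeff k = c * f.coeff k := by
  have h : algebraMap K (LaurentSeries K) c = HahnSeries.C c := by
    have h1 : algebraMap K (PowerSeries K) c = PowerSeries.C c := by
      simp
    rw [HahnSeries.algebraMap_apply', h1, HahnSeries.ofPowerSeries_C]
  rw [h, HahnSeries.C_mul_eq_smul, HahnSeries.coeff_smul, smul_eq_mul]

theorem coeff_algebraMap (c : K) (k : ℤ) :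
    (algebraMap K (LaurentSeries K) c).coeff k = if k = 0 then c else 0 := by
  have := coeff_algebraMap_mul c 1 k
  rw [mul_one, HahnSeries.coeff_one] at this
  rw [this]
  split_ifs <;> simp

theorem algebraMap_mem_Ol {c : K} (hc : v c ≤ 1) : algebraMap K (LaurentSeries K) c ∈ Ol v := by
  intro k
  rw [coeff_algebraMap]
  split_ifs
  · exact hc
  · rw [map_zero]
    exact zero_le_one

theorem isPrim_algebraMap {c : K} (hc : v c = 1) : IsPrim v (algebraMap K (LaurentSeries K) c) :=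
  ⟨algebraMap_mem_Ol hc.le, 0, by rw [coeff_algebraMap, if_pos rfl, hc]⟩

/-! ### Stripping the content -/

/-- A uniformiser of `v`. -/
structure IsUnif (v : Valuation K Γ₀) (ϖ : K) : Prop where
  lt_one : v ϖ < 1
  ne_zero : ϖ ≠ 0
  le_of_lt_one : ∀ x : K, v x < 1 → v x ≤ v ϖ
  exists_pow_le : ∀ x : K, x ≠ 0 → ∃ n : ℕ, v ϖ ^ n ≤ v x

variable {ϖ : K}

/-- `ϖ` as an element of `K((t))`. -/
abbrev cL (ϖ : K) : LaurentSeries K := algebraMap K (LaurentSeries K) ϖ

theorem cL_ne_zero (hϖ : IsUnif v ϖ) : cL ϖ ≠ 0 := by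
  rw [Ne, map_eq_zero]
  exact hϖ.ne_zero

theorem cL_mem_Ol (hϖ : IsUnif v ϖ) : cL ϖ ∈ Ol v := algebraMap_mem_Ol hϖ.lt_one.le

theorem v_unif_ne_zero (hϖ : IsUnif v ϖ) : v ϖ ≠ 0 := by
  rw [Ne, Valuation.zero_iff]
  exact hϖ.ne_zero

/-- An integral series which is not primitive is divisible by `ϖ`. -/
theorem exists_eq_cL_mul (hϖ : IsUnif v ϖ) {f : LaurentSeries K} (hf : f ∈ Ol v)
    (hnp : ¬ IsPrim v f) : ∃ g ∈ Ol v, f = cL ϖ * g := by
  have hlt : ∀ k, v (f.coeff k) < 1 := by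
    intro k
    refine lt_of_le_of_ne (hf k) fun h => hnp ⟨hf, k, h⟩
  refine ⟨algebraMap K (LaurentSeries K) ϖ⁻¹ * f, ?_, ?_⟩
  · intro k
    rw [coeff_algebraMap_mul, map_mul, map_inv₀]
    have h1 := hϖ.le_of_lt_one _ (hlt k)
    calc (v ϖ)⁻¹ * v (f.coeff k) ≤ (v ϖ)⁻¹ * v ϖ := mul_le_mul_right h1 _
      _ = 1 := inv_mul_cancel₀ (v_unif_ne_zero hϖ)
  · rw [← mul_assoc, ← map_mul, mul_inv_cancel₀ hϖ.ne_zero, map_one, one_mul]

theorem exists_pow_mul_aux (hϖ : IsUnif v ϖ) (n : ℕ) : ∀ (f : LaurentSeries K), f ∈ Ol v →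
    ∀ k : ℤ, f.coeff k ≠ 0 → v ϖ ^ n ≤ v (f.coeff k) →
    ∃ (r : ℕ) (g : LaurentSeries K), IsPrim v g ∧ f = cL ϖ ^ r * g := by
  induction n with
  | zero =>
    intro f hf k _ hn
    rw [pow_zero] at hn
    exact ⟨0, f, ⟨hf, k, le_antisymm (hf k) hn⟩, by rw [pow_zero, one_mul]⟩
  | succ n ih =>
    intro f hf k hk hn
    by_cases hp : IsPrim v f
    · exact ⟨0, f, hp, by rw [pow_zero, one_mul]⟩
    · obtain ⟨g, hg, hfg⟩ := exists_eq_cL_mul hϖ hf hp
      have hgk : f.coeff k = ϖ * g.coeff k := by rw [hfg, coeff_algebraMap_mul]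
      have hgk0 : g.coeff k ≠ 0 := by
        intro h0
        apply hk
        rw [hgk, h0, mul_zero]
      have h3 : v ϖ ^ n ≤ v (g.coeff k) := by
        rw [hgk, map_mul, pow_succ'] at hn
        exact le_of_mul_le_mul_left hn (zero_lt_iff.mpr (v_unif_ne_zero hϖ))
      obtain ⟨r, g', hg', hgg'⟩ := ih g hg k hgk0 h3
      exact ⟨r + 1, g', hg', by rw [hfg, hgg', pow_succ]; ring⟩

/-- Every nonzero integral series is `ϖ ^ r` times a primitive one. -/
theorem exists_pow_mul (hϖ : IsUnif v ϖ) {f : LaurentSeries K} (hf : f ∈ Ol v) (hf0 : f ≠ 0) :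
    ∃ (r : ℕ) (g : LaurentSeries K), IsPrim v g ∧ f = cL ϖ ^ r * g := by
  obtain ⟨k, hk⟩ : ∃ k, f.coeff k ≠ 0 := by
    by_contra h
    have h' : ∀ k, f.coeff k = 0 := fun k => by_contra fun hk => h ⟨k, hk⟩
    exact hf0 (HahnSeries.ext (funext h'))
  obtain ⟨n, hn⟩ := hϖ.exists_pow_le _ hk
  exact exists_pow_mul_aux hϖ n f hf k hk hn

/-- `ϖ · (integral)` is not primitive. -/
theorem not_isPrim_cL_mul (hϖ : IsUnif v ϖ) {g : LaurentSeries K} (hg : g ∈ Ol v) :
    ¬ IsPrim v (cL ϖ * g) := by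
  rintro ⟨_, k, hk⟩
  rw [coeff_algebraMap_mul, map_mul] at hk
  have h1 : v ϖ * v (g.coeff k) ≤ v ϖ * 1 := mul_le_mul_right (hg k) _
  rw [hk, mul_one] at h1
  exact absurd hϖ.lt_one (not_lt.mpr h1)

/-! ### The valuation ring `Ow` of a field `F ⊆ K((t))` -/

section Field

variable (v) (F : IntermediateField K (LaurentSeries K))

/-- Every element of `F` is a quotient of integral elements of `F`. -/
def IsRatio : Prop :=
  ∀ x ∈ F, ∃ a b : LaurentSeries K, a ∈ F ∧ a ∈ Ol v ∧ b ∈ F ∧ b ∈ Ol v ∧ b ≠ 0 ∧ x * b = a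

/-- `x = a / b` with `a, b ∈ F` integral and `b` primitive. -/
def InOw (x : LaurentSeries K) : Prop :=
  ∃ a b : LaurentSeries K, a ∈ F ∧ a ∈ Ol v ∧ b ∈ F ∧ IsPrim v b ∧ x * b = a

variable {v F}

theorem inOw_of_mem {x : LaurentSeries K} (hxF : x ∈ F) (hx : x ∈ Ol v) : InOw v F x :=
  ⟨x, 1, hxF, hx, F.one_mem, isPrim_one, mul_one x⟩

theorem inOw_zero : InOw v F 0 := inOw_of_mem F.zero_mem (Ol v).zero_mem

theorem inOw_one : InOw v F 1 := inOw_of_mem F.one_mem (Ol v).one_mem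

theorem InOw.add {x y : LaurentSeries K} (hx : InOw v F x) (hy : InOw v F y) :
    InOw v F (x + y) := by
  obtain ⟨a, b, haF, ha, hbF, hb, hab⟩ := hx
  obtain ⟨c, d, hcF, hc, hdF, hd, hcd⟩ := hy
  refine ⟨a * d + c * b, b * d, F.add_mem (F.mul_mem haF hdF) (F.mul_mem hcF hbF),
    (Ol v).add_mem ((Ol v).mul_mem ha hd.1) ((Ol v).mul_mem hc hb.1), F.mul_mem hbF hdF,
    hb.mul hd, ?_⟩
  rw [← hab, ← hcd]
  ring

theorem InOw.mul {x y : LaurentSeries K} (hx : InOw v F x) (hy : InOw v F y) :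
    InOw v F (x * y) := by
  obtain ⟨a, b, haF, ha, hbF, hb, hab⟩ := hx
  obtain ⟨c, d, hcF, hc, hdF, hd, hcd⟩ := hy
  refine ⟨a * c, b * d, F.mul_mem haF hcF, (Ol v).mul_mem ha hc, F.mul_mem hbF hdF,
    hb.mul hd, ?_⟩
  rw [← hab, ← hcd]
  ring

theorem InOw.neg {x : LaurentSeries K} (hx : InOw v F x) : InOw v F (-x) := by
  obtain ⟨a, b, haF, ha, hbF, hb, hab⟩ := hx
  exact ⟨-a, b, F.neg_mem haF, (Ol v).neg_mem ha, hbF, hb, by rw [← hab]; ring⟩

theorem InOw.mem {x : LaurentSeries K} (hx : InOw v F x) : x ∈ F := by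
  obtain ⟨a, b, haF, _, hbF, hb, hab⟩ := hx
  have hb0 := hb.ne_zero
  have : x = a * b⁻¹ := by
    rw [← hab, mul_assoc, mul_inv_cancel₀ hb0, mul_one]
  rw [this]
  exact F.mul_mem haF (F.inv_mem hbF)

/-- Division of an element of `F` by a power of `ϖ` stays in `F`. -/
theorem mem_F_of_pow_mul (hϖ : IsUnif v ϖ) {a g : LaurentSeries K} {r : ℕ} (haF : a ∈ F)
    (h : a = cL ϖ ^ r * g) : g ∈ F := by
  have h0 : cL ϖ ^ r ≠ 0 := pow_ne_zero r (cL_ne_zero hϖ)
  have : g = (cL ϖ ^ r)⁻¹ * a := by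
    rw [h, ← mul_assoc, inv_mul_cancel₀ h0, one_mul]
  rw [this]
  exact F.mul_mem (F.inv_mem (F.pow_mem (F.algebraMap_mem ϖ) r)) haF

/-- **Gauss decomposition**: every nonzero `x ∈ F` is `ϖ ^ r a' / (ϖ ^ s b')` with `a', b' ∈ F`
primitive. -/
theorem exists_decomp (hϖ : IsUnif v ϖ) (hF : IsRatio v F) {x : LaurentSeries K} (hx : x ∈ F)
    (hx0 : x ≠ 0) :
    ∃ (r s : ℕ) (a' b' : LaurentSeries K), a' ∈ F ∧ IsPrim v a' ∧ b' ∈ F ∧ IsPrim v b' ∧
      x * (cL ϖ ^ s * b') = cL ϖ ^ r * a' := by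
  obtain ⟨a, b, haF, ha, hbF, hb, hb0, hab⟩ := hF x hx
  have ha0 : a ≠ 0 := by
    rw [← hab]
    exact mul_ne_zero hx0 hb0
  obtain ⟨r, a', ha', haa'⟩ := exists_pow_mul hϖ ha ha0
  obtain ⟨s, b', hb', hbb'⟩ := exists_pow_mul hϖ hb hb0
  exact ⟨r, s, a', b', mem_F_of_pow_mul hϖ haF haa', ha', mem_F_of_pow_mul hϖ hbF hbb', hb',
    by rw [← haa', ← hbb', hab]⟩

/-- Trichotomy: a nonzero `x ∈ F` is in `Ow`, or its inverse is `ϖ` times an element of `Ow`. -/
theorem inOw_or_inv_eq_mul (hϖ : IsUnif v ϖ) (hF : IsRatio v F) {x : LaurentSeries K}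
    (hx : x ∈ F) (hx0 : x ≠ 0) : InOw v F x ∨ ∃ y, InOw v F y ∧ x⁻¹ = cL ϖ * y := by
  obtain ⟨r, s, a', b', ha'F, ha', hb'F, hb', h⟩ := exists_decomp hϖ hF hx hx0
  have hl0 : cL ϖ ≠ 0 := cL_ne_zero hϖ
  have hlF : cL ϖ ∈ F := F.algebraMap_mem ϖ
  rcases le_or_gt s r with hsr | hrs
  · left
    obtain ⟨t, rfl⟩ := Nat.exists_eq_add_of_le hsr
    refine ⟨cL ϖ ^ t * a', b', F.mul_mem (F.pow_mem hlF t) ha'F,
      (Ol v).mul_mem ((Ol v).pow_mem (cL_mem_Ol hϖ) t) ha'.1, hb'F, hb', ?_⟩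
    have hs0 : cL ϖ ^ s ≠ 0 := pow_ne_zero s hl0
    apply mul_left_cancel₀ hs0
    rw [← mul_assoc, mul_comm (cL ϖ ^ s) x, mul_assoc, h, _root_.pow_add]
    ring
  · right
    obtain ⟨t, rfl⟩ := Nat.exists_eq_add_of_le hrs.le
    have ht : t ≠ 0 := by omega
    obtain ⟨t', rfl⟩ := Nat.exists_eq_succ_of_ne_zero ht
    have ha0 : a' ≠ 0 := ha'.ne_zero
    refine ⟨cL ϖ ^ t' * b' * a'⁻¹, ⟨cL ϖ ^ t' * b', a', F.mul_mem (F.pow_mem hlF t') hb'F,
      (Ol v).mul_mem ((Ol v).pow_mem (cL_mem_Ol hϖ) t') hb'.1, ha'F, ha', ?_⟩, ?_⟩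
    · rw [mul_assoc, inv_mul_cancel₀ ha0, mul_one]
    · have hr0 : cL ϖ ^ r ≠ 0 := pow_ne_zero r hl0
      have h2 : x * (cL ϖ ^ (r + (t' + 1)) * b') = cL ϖ ^ r * a' := h
      have h3 : x * (cL ϖ * (cL ϖ ^ t' * b' * a'⁻¹)) = 1 := by
        have : x * (cL ϖ * (cL ϖ ^ t' * b' * a'⁻¹)) * (cL ϖ ^ r * a') = cL ϖ ^ r * a' := by
          calc x * (cL ϖ * (cL ϖ ^ t' * b' * a'⁻¹)) * (cL ϖ ^ r * a')
              = x * (cL ϖ ^ (r + (t' + 1)) * b') * (a'⁻¹ * a') := by
                rw [_root_.pow_add, pow_succ]; ring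
            _ = cL ϖ ^ r * a' := by rw [h2, inv_mul_cancel₀ ha0, mul_one]
        exact mul_right_cancel₀ (mul_ne_zero hr0 ha0) (by rw [this, one_mul])
      exact (eq_inv_of_mul_eq_one_right h3).symm ▸ rfl

/-- `Ow` is a valuation ring of `F`. -/
theorem inOw_or_inv (hϖ : IsUnif v ϖ) (hF : IsRatio v F) {x : LaurentSeries K} (hx : x ∈ F) :
    InOw v F x ∨ InOw v F x⁻¹ := by
  by_cases hx0 : x = 0
  · left
    rw [hx0]
    exact inOw_zero
  rcases inOw_or_inv_eq_mul hϖ hF hx hx0 with h | ⟨y, hy, hxy⟩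
  · exact Or.inl h
  · right
    rw [hxy]
    exact (inOw_of_mem (F.algebraMap_mem ϖ) (cL_mem_Ol hϖ)).mul hy

/-- `ϖ` is not a unit of `Ow`. -/
theorem not_inOw_inv_cL (hϖ : IsUnif v ϖ) : ¬ InOw v F (cL ϖ)⁻¹ := by
  rintro ⟨a, b, _, ha, _, hb, hab⟩
  have h0 : cL ϖ ≠ 0 := cL_ne_zero hϖ
  have : b = cL ϖ * a := by
    rw [← hab, ← mul_assoc, mul_inv_cancel₀ h0, one_mul]
  rw [this] at hb
  exact not_isPrim_cL_mul hϖ ha hb

/-- A constant is in `Ow` iff it is `v`-integral. -/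
theorem inOw_algebraMap_iff {c : K} :
    InOw v F (algebraMap K (LaurentSeries K) c) ↔ v c ≤ 1 := by
  constructor
  · rintro ⟨a, b, _, ha, _, hb, hab⟩
    by_contra hc
    rw [not_le] at hc
    obtain ⟨k, hk⟩ := hb.2
    have h1 : a.coeff k = c * b.coeff k := by
      rw [← hab, coeff_algebraMap_mul]
    have h2 := ha k
    rw [h1, map_mul, hk, mul_one] at h2
    exact absurd hc (not_lt.mpr h2)
  · intro hc
    exact inOw_of_mem (F.algebraMap_mem c) (algebraMap_mem_Ol hc)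

/-- **Stability**: a ring endomorphism of `K((t))` preserving `F`, integrality and primitivity
preserves `Ow`. -/
theorem InOw.map (Θ : LaurentSeries K →+* LaurentSeries K) (hΘF : ∀ x ∈ F, Θ x ∈ F)
    (hΘO : ∀ x ∈ Ol v, Θ x ∈ Ol v) (hΘP : ∀ x, IsPrim v x → IsPrim v (Θ x))
    {x : LaurentSeries K} (hx : InOw v F x) : InOw v F (Θ x) := by
  obtain ⟨a, b, haF, ha, hbF, hb, hab⟩ := hx
  exact ⟨Θ a, Θ b, hΘF a haF, hΘO a ha, hΘF b hbF, hΘP b hb, by rw [← map_mul, hab]⟩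

variable (v F)

/-- **The Gauss valuation subring** of `F`. -/
def Ow (hϖ : IsUnif v ϖ) (hF : IsRatio v F) : ValuationSubring ↥F where
  carrier := {x | InOw v F (x : LaurentSeries K)}
  mul_mem' := fun hx hy => InOw.mul hx hy
  one_mem' := inOw_one
  add_mem' := fun hx hy => InOw.add hx hy
  zero_mem' := inOw_zero
  neg_mem' := fun hx => InOw.neg hx
  mem_or_inv_mem' := fun x => inOw_or_inv hϖ hF x.2

variable {v F}

theorem mem_Ow_iff (hϖ : IsUnif v ϖ) (hF : IsRatio v F) {x : ↥F} :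
    x ∈ Ow v F hϖ hF ↔ InOw v F (x : LaurentSeries K) := Iff.rfl

end Field

/-! ### The substitution `t ↦ u t` preserves integrality and primitivity -/

/-- A map on series which multiplies the `k`-th coefficient by a unit `c k` preserves `Ol` and
primitivity. -/
theorem mem_Ol_of_coeff_mul {f g : LaurentSeries K} (c : ℤ → K) (hc : ∀ k, v (c k) = 1)
    (hg : ∀ k, g.coeff k = c k * f.coeff k) (hf : f ∈ Ol v) : g ∈ Ol v := by
  intro k
  rw [hg k, map_mul, hc k, one_mul]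
  exact hf k

theorem isPrim_of_coeff_mul {f g : LaurentSeries K} (c : ℤ → K) (hc : ∀ k, v (c k) = 1)
    (hg : ∀ k, g.coeff k = c k * f.coeff k) (hf : IsPrim v f) : IsPrim v g := by
  refine ⟨mem_Ol_of_coeff_mul c hc hg hf.1, ?_⟩
  obtain ⟨k, hk⟩ := hf.2
  exact ⟨k, by rw [hg k, map_mul, hc k, one_mul, hk]⟩

/-- A coefficientwise isometry preserves `Ol` and primitivity. -/
theorem mem_Ol_of_coeff_map {f g : LaurentSeries K} (σ : K → K) (hσ : ∀ x, v (σ x) = v x)
    (hg : ∀ k, g.coeff k = σ (f.coeff k)) (hf : f ∈ Ol v) : g ∈ Ol v := by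
  intro k
  rw [hg k, hσ]
  exact hf k

theorem isPrim_of_coeff_map {f g : LaurentSeries K} (σ : K → K) (hσ : ∀ x, v (σ x) = v x)
    (hg : ∀ k, g.coeff k = σ (f.coeff k)) (hf : IsPrim v f) : IsPrim v g := by
  refine ⟨mem_Ol_of_coeff_map σ hσ hg hf.1, ?_⟩
  obtain ⟨k, hk⟩ := hf.2
  exact ⟨k, by rw [hg k, hσ, hk]⟩

end Fermat.Agent.S48.B.Igusa.GaussDVR

end
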