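/-
PROJECT D (S48, Deligne–Serre), PART B, block B2 (Igusa for `X₁(M)`), THE END (helper25):
**`IgusaDeg M` IS A THEOREM.**

`Red.Seams.IgusaDeg M` (helper11's seam [B-igusa]: for `ℓ ∤ M` and `A` over `ℓ`, the field `F1C M κ(A)`
generated by the reductions of the `ℤ`-integral elements of `F1 M` is finite over `κ(A)(j̄)`, of the
same degree as `ℚ̄(X₁(M))` over `ℚ̄(j)`) is `Final.igusaDeg` fed with

* the uniqueness of the Gauss-vertical valuation ring over the inertia field, `U1.Main.unique1`
  (helper23, on helper12's `Full/*`, helper16's `WpInput`, helper3's `Val/*` + `U1/Inertia`,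
  helper4's `U1/Transport`, main's `S36/GaussUniqX0`);
* the finiteness of `K0 A ⊗ F1 M` over `K0 A (j)`, `FiniteDesc.finite1_of_deg1` (helper4) on block B1's
  `B1.Main.deg1` (helper7).
-/
import Mathlib
import Fermat.Agent.S48.B.B1.Main
import Fermat.Agent.S48.B.Igusa.Final
import Fermat.Agent.S48.B.Igusa.FiniteDesc
import Fermat.Agent.S48.B.Igusa.U1.Main

set_option autoImplicit false

noncomputable section

namespace Fermat.Agent.S48.B.Igusa.Main

open Fermat.Agent.S18.C.SmallDVR (K0)
open Fermat.Agent.S48.B.Red.Seams (IgusaDeg)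

/-- `IgusaDeg M` from the uniqueness seam alone (the finiteness is block B1's degree theorem). -/
theorem igusaDeg_of_unique1 (M : ℕ) [NeZero M] (hU : Seams.Unique1 M) : IgusaDeg M :=
  Final.igusaDeg M hU
    (fun A => FiniteDesc.finite1_of_deg1 M (Fermat.Agent.S48.B.B1.Main.deg1 M) ↥(K0 A))

/-- **[B-igusa], degree: `IgusaDeg M`, hypothesis-free.** -/
theorem igusaDeg (M : ℕ) [NeZero M] : IgusaDeg M :=
  igusaDeg_of_unique1 M (U1.Main.unique1 M)

end Fermat.Agent.S48.B.Igusa.Main
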